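/-
GATE-B (Ribet level lowering, S38/S43) / TOP, layer 0 (helper53, gate lead).

`s43_of_cases` : the frozen statement S43 from the two case statements of DESIGN v1 (board 4996):

* `CaseA` (Mazur's principle at `q ≠ p`): if the mod-`p` representation of the Frey curve is
  modular of level `N' q`, unramified at `q`, and NOT modular of level `N'`, then `q ≡ 1 (mod p)`
  and every Frobenius at `q` acts on the `p`-torsion as a scalar;
* `CaseB` (Ihara avoidance): in that remaining situation it IS modular of level `N'`.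

Both are stated in the vocabulary of the frozen S43 (Frey packages), so that the final
`Fermat/Agent/S43.lean` is `s43_of_cases caseA caseB`.
-/
import Fermat.Statements.S43
import Fermat.Prelude.Def_EllipticCurve_FrobeniusTrace

set_option autoImplicit false
open WeierstrassCurve WeierstrassCurve.Affine WeierstrassCurve.Affine.Point
open FreyPackage

namespace Fermat.Agent.GB.Top

/-- `ℚ̄`. -/
local notation "Qb" => AlgebraicClosure ℚ

/-- Every Frobenius at `q` acts on the `p`-torsion of the Frey curve as a scalar. -/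
def FrobScalarAt (P : FreyPackage) (q : ℕ) : Prop :=
  ∀ A : ValuationSubring Qb, A.LiesOverPrime q →
    ∀ φ : Qb ≃ₐ[ℚ] Qb, A.IsFrobeniusAt φ q →
      ∃ c : ℤ, ∀ x : Submodule.torsionBy ℤ (P.freyCurve⁄Qb).Point P.p, φ • x = c • x

/-- **CASE A** (Mazur's principle at `q ≠ p`), Frey-package form. -/
def CaseA : Prop :=
  ∀ (P : FreyPackage) {N' q : ℕ}, P.IsConductorLevel (N' * q) → q.Prime → q ≠ 2 → q ≠ P.p →
    GaloisRepIsIrreducible (K := Qb) ℚ P.freyCurve P.p →
    P.ModularRepOfLevel (N' * q) → P.GaloisRepUnramifiedAt q →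
    ¬ P.ModularRepOfLevel N' → q % P.p = 1 ∧ FrobScalarAt P q

/-- **CASE B** (Ihara avoidance at `q ≡ 1 (p)`, scalar Frobenius), Frey-package form. -/
def CaseB : Prop :=
  ∀ (P : FreyPackage) {N' q : ℕ}, P.IsConductorLevel (N' * q) → q.Prime → q ≠ 2 → q ≠ P.p →
    GaloisRepIsIrreducible (K := Qb) ℚ P.freyCurve P.p →
    P.ModularRepOfLevel (N' * q) → P.GaloisRepUnramifiedAt q →
    q % P.p = 1 → FrobScalarAt P q → P.ModularRepOfLevel N'

/-- **S43 from the two cases.** -/
theorem s43_of_cases (hA : CaseA) (hB : CaseB)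
    (P : FreyPackage) {N q : ℕ} (hcond : P.IsConductorLevel N) (hq : q.Prime) (hq2 : q ≠ 2)
    (hqp : q ≠ P.p) (hqN : q ∣ N)
    (hirr : GaloisRepIsIrreducible (K := Qb) ℚ P.freyCurve P.p)
    (hmod : P.ModularRepOfLevel N) (hunr : P.GaloisRepUnramifiedAt q) :
    ∃ M : ℕ, M ∣ N ∧ ¬ q ∣ M ∧ P.ModularRepOfLevel M := by
  obtain ⟨N', rfl⟩ := hqN
  have hcond' : P.IsConductorLevel (N' * q) := by rwa [mul_comm]
  have hmod' : P.ModularRepOfLevel (N' * q) := by rwa [mul_comm]
  have hqN' : ¬ q ∣ N' := by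
    rintro ⟨k, rfl⟩
    exact hcond.sq_not_dvd hq ⟨k, by ring⟩
  refine ⟨N', Dvd.intro_left q rfl, hqN', ?_⟩
  by_contra hnot
  obtain ⟨h1, hs⟩ := hA P hcond' hq hq2 hqp hirr hmod' hunr hnot
  exact hnot (hB P hcond' hq hq2 hqp hirr hmod' hunr h1 hs)

end Fermat.Agent.GB.Top
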