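/-
GATE-B / TOP, layer 1 (helper79): the FREY ADAPTER.  The frozen statement S43 (level lowering at an
odd prime `q ∣ N` for the Frey package) and the Frey-package case statements `GB.Top.CaseA`,
`GB.Top.CaseB` of `GB/Top/S43Top.lean` (helper53) from the RIBET CORE in the frozen S38 shape
(general semistable `W`), restricted to `5 ≤ p` and `q ≠ 2`.

* `Core38`   : frozen S38 binders with `5 ≤ p`, `q ≠ 2`.
* `ScalarFrob38` : every Frobenius at `q` acts on `W[p]` as a scalar.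
* `CaseA38`, `CaseB38` : the two halves of the CELL-B design in S38 shape;
  `core_of_cases : CaseA38 → CaseB38 → Core38`.
* `ModelChange` : the residual congruences of an eigenform with an elliptic curve do not depend on
  the integral model (Chebotarev + Eichler–Shimura at the good primes of the second model).
* `s43_of_core : Core38 → ModelChange → (frozen S43 statement)`;
  `caseA_of_caseA38 : CaseA38 → ModelChange → GB.Top.CaseA`,
  `caseB_of_caseB38 : CaseB38 → ModelChange → GB.Top.CaseB`.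

Frey facts proved here: `freyCurveInt` is a semistable integral model of the Frey curve with
`Δ ≠ 0` (`c₄ = A² + AB + B²`, `256 Δ = (A B (A + B))²`), `#E[p] = p²`, finite level,
irreducibility and unramifiedness transported along `freyCurve = freyCurveInt.map`.
-/
import Mathlib
import Fermat.Prelude.Def_FLTPrelim_FreyPackage
import Fermat.Prelude.Def_FLTPrelim_GaloisRep
import Fermat.Prelude.Def_FLTPrelim_Modularity
import Fermat.Prelude.Def_FLTPrelim_ModularRep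
import Fermat.Prelude.Def_FLTPrelim_Ramification
import Fermat.Prelude.Def_FreyPackage_IsConductorLevel
import Fermat.Prelude.Def_GaloisRep_Residual
import Fermat.Agent.GE.Tors.Cor
import Fermat.Agent.GJ.Pkg
import Fermat.Agent.GB.Top.S43Top

set_option autoImplicit false

open WeierstrassCurve WeierstrassCurve.Affine WeierstrassCurve.Affine.Point
open scoped WeierstrassCurve.Affine

namespace Fermat.Agent.GB.Top.S43Frey

/-- `ℚ̄`. -/
local notation "Qb" => AlgebraicClosure ℚ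

/-- the absolute Galois group of `ℚ`. -/
local notation "GQ" => (AlgebraicClosure ℚ ≃ₐ[ℚ] AlgebraicClosure ℚ)

/-! ### the statements -/

/-- **The Ribet core**: the frozen statement S38 with `5 ≤ p` and `q ≠ 2`. -/
def Core38 : Prop :=
  ∀ (p : ℕ) [Fact p.Prime] (_ : 5 ≤ p) (W : WeierstrassCurve ℤ) (_ : W.Δ ≠ 0)
    (_ : W.IsSemistableModel)
    (hcard₁ : Nat.card (Submodule.torsionBy ℤ
      ((W.map (Int.castRingHom ℚ))⁄(AlgebraicClosure ℚ)).Point p) = p ^ 2)
    (hker : GaloisFactorsThroughFiniteLevel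
      (WeierstrassCurve.Affine.Point.galoisRepModuleEnd (K := AlgebraicClosure ℚ) ℚ
        (W.map (Int.castRingHom ℚ)) p))
    (_ : W.ModRepIsIrreducible p) (M q : ℕ) (_ : q.Prime) (_ : q ≠ 2) (_ : q ≠ p)
    (_ : q ∣ M) (_ : Squarefree M)
    (_ : ((W.map (Int.castRingHom ℚ)).residualGaloisRepOf p hcard₁ hker).IsUnramifiedAt q)
    (_ : W.IsResiduallyModularOfLevel p M),
    W.IsResiduallyModularOfLevel p (M / q)

/-- Every Frobenius element at `q` acts on `W[p]` as a scalar. -/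
def ScalarFrob38 (W : WeierstrassCurve ℤ) (p q : ℕ) : Prop :=
  ∀ A : ValuationSubring (AlgebraicClosure ℚ), A.LiesOverPrime q →
    ∀ φ : GQ, A.IsFrobeniusAt φ q → ∃ c : ZMod p,
      WeierstrassCurve.Affine.Point.galoisRepModuleEnd (K := AlgebraicClosure ℚ) ℚ
        (W.map (Int.castRingHom ℚ)) p φ = c • 1

/-- **CASE A** (Mazur's principle at `q`): if the level cannot be lowered at `q`, then
`q ≡ 1 (mod p)` and the Frobenius elements at `q` are scalar on `W[p]`. -/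
def CaseA38 : Prop :=
  ∀ (p : ℕ) [Fact p.Prime] (_ : 5 ≤ p) (W : WeierstrassCurve ℤ) (_ : W.Δ ≠ 0)
    (_ : W.IsSemistableModel)
    (hcard₁ : Nat.card (Submodule.torsionBy ℤ
      ((W.map (Int.castRingHom ℚ))⁄(AlgebraicClosure ℚ)).Point p) = p ^ 2)
    (hker : GaloisFactorsThroughFiniteLevel
      (WeierstrassCurve.Affine.Point.galoisRepModuleEnd (K := AlgebraicClosure ℚ) ℚ
        (W.map (Int.castRingHom ℚ)) p))
    (_ : W.ModRepIsIrreducible p) (M q : ℕ) (_ : q.Prime) (_ : q ≠ 2) (_ : q ≠ p)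
    (_ : q ∣ M) (_ : Squarefree M)
    (_ : ((W.map (Int.castRingHom ℚ)).residualGaloisRepOf p hcard₁ hker).IsUnramifiedAt q)
    (_ : W.IsResiduallyModularOfLevel p M)
    (_ : ¬ W.IsResiduallyModularOfLevel p (M / q)),
    q % p = 1 ∧ ScalarFrob38 W p q

/-- **CASE B** (Ihara avoidance): `q ≡ 1 (mod p)` with scalar Frobenius at `q`. -/
def CaseB38 : Prop :=
  ∀ (p : ℕ) [Fact p.Prime] (_ : 5 ≤ p) (W : WeierstrassCurve ℤ) (_ : W.Δ ≠ 0)
    (_ : W.IsSemistableModel)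
    (hcard₁ : Nat.card (Submodule.torsionBy ℤ
      ((W.map (Int.castRingHom ℚ))⁄(AlgebraicClosure ℚ)).Point p) = p ^ 2)
    (hker : GaloisFactorsThroughFiniteLevel
      (WeierstrassCurve.Affine.Point.galoisRepModuleEnd (K := AlgebraicClosure ℚ) ℚ
        (W.map (Int.castRingHom ℚ)) p))
    (_ : W.ModRepIsIrreducible p) (M q : ℕ) (_ : q.Prime) (_ : q ≠ 2) (_ : q ≠ p)
    (_ : q ∣ M) (_ : Squarefree M)
    (_ : ((W.map (Int.castRingHom ℚ)).residualGaloisRepOf p hcard₁ hker).IsUnramifiedAt q)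
    (_ : W.IsResiduallyModularOfLevel p M)
    (_ : q % p = 1) (_ : ScalarFrob38 W p q),
    W.IsResiduallyModularOfLevel p (M / q)

/-- The core from the two cases. -/
theorem core_of_cases (hA : CaseA38) (hB : CaseB38) : Core38 := by
  intro p _ hp5 W hΔ hW hcard₁ hker hirr M q hq hq2 hqp hqM hM hunr hres
  by_contra hnot
  obtain ⟨h1, h2⟩ := hA p hp5 W hΔ hW hcard₁ hker hirr M q hq hq2 hqp hqM hM hunr hres hnot
  exact hnot (hB p hp5 W hΔ hW hcard₁ hker hirr M q hq hq2 hqp hqM hM hunr hres h1 h2)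

/-- **Model change**: the residual congruences between an eigenform and an elliptic curve over `ℚ`
do not depend on the integral model used to count points. -/
def ModelChange : Prop :=
  ∀ (E : WeierstrassCurve ℚ) (_ : E.Δ ≠ 0) (W W' : WeierstrassCurve ℤ)
    (_ : W.IsIntegralModelOf E) (_ : W'.IsIntegralModelOf E) (p N : ℕ) (_ : p.Prime)
    (f : CuspForm (CongruenceSubgroup.Gamma0 N) 2) (𝔪 : Ideal (integralClosure ℤ ℂ)),
    f.IsNormalizedEigenform → 𝔪.IsMaximal → (p : integralClosure ℤ ℂ) ∈ 𝔪 →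
    (∀ ℓ : ℕ, ℓ.Prime → W.IsGoodPrimeFor ℓ → ¬ ℓ ∣ N → ℓ ≠ p →
      ∃ a : integralClosure ℤ ℂ, (a : ℂ) = ModularFormClass.qCoeff f ℓ ∧
        a - ((W.apOfModel ℓ : ℤ) : integralClosure ℤ ℂ) ∈ 𝔪) →
    ∀ ℓ : ℕ, ℓ.Prime → W'.IsGoodPrimeFor ℓ → ¬ ℓ ∣ N → ℓ ≠ p →
      ∃ a : integralClosure ℤ ℂ, (a : ℂ) = ModularFormClass.qCoeff f ℓ ∧
        a - ((W'.apOfModel ℓ : ℤ) : integralClosure ℤ ℂ) ∈ 𝔪


/-! ### arithmetic of the Frey curve -/

section FreyArith

variable (P : FreyPackage)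

theorem four_dvd : (4 : ℤ) ∣ P.b ^ P.p - 1 - P.a ^ P.p := by
  have hodd := P.hp_odd
  have h2 : (2 : ℤ) ∣ P.b := (ZMod.intCast_zmod_eq_zero_iff_dvd P.b 2).1 P.hb2
  have hp2 : 2 ≤ P.p := by have := P.hp5; omega
  have key : ((P.b ^ P.p - 1 - P.a ^ P.p : ℤ) : ZMod 4) = 0 := by
    push_cast
    have hb : ((P.b : ZMod 4)) ^ P.p = 0 := by
      obtain ⟨k, hk⟩ := h2
      obtain ⟨m, hm⟩ : ∃ m, P.p = 2 + m := ⟨P.p - 2, by omega⟩
      rw [hk, hm]
      push_cast
      rw [pow_add, mul_pow]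
      have : ((2 : ZMod 4)) ^ 2 = 0 := by decide
      rw [this]; ring
    have ha : ((P.a : ZMod 4)) ^ P.p = 3 := by
      rw [P.ha4]
      obtain ⟨k, hk⟩ := hodd
      rw [hk, pow_succ, pow_mul]
      have : ((3 : ZMod 4)) ^ 2 = 1 := by decide
      rw [this, one_pow, one_mul]
    rw [hb, ha]
    decide
  exact (ZMod.intCast_zmod_eq_zero_iff_dvd _ 4).1 key

theorem sixteen_dvd : (16 : ℤ) ∣ -(P.a ^ P.p) * P.b ^ P.p := by
  have h2 : (2 : ℤ) ∣ P.b := (ZMod.intCast_zmod_eq_zero_iff_dvd P.b 2).1 P.hb2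
  obtain ⟨k, hk⟩ := h2
  obtain ⟨m, hm⟩ : ∃ m, P.p = 4 + m := ⟨P.p - 4, by have := P.hp5; omega⟩
  refine Dvd.dvd.mul_left ?_ _
  rw [hk, hm, mul_pow, pow_add]
  exact ⟨2 ^ m * k ^ (4 + m), by ring⟩

/-- The Frey curve is the generic fibre of `freyCurveInt`. -/
theorem freyCurve_eq_map : P.freyCurve = P.freyCurveInt.map (Int.castRingHom ℚ) := by
  have h4 := four_dvd P
  have h16 := sixteen_dvd P
  ext
  · simp [FreyPackage.freyCurve, FreyPackage.freyCurveInt]
  · simp only [FreyPackage.freyCurve, FreyPackage.freyCurveInt, WeierstrassCurve.map_a₂,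
      eq_intCast]
    rw [Int.cast_div h4 (by norm_num)]
    push_cast; ring
  · simp [FreyPackage.freyCurve, FreyPackage.freyCurveInt]
  · simp only [FreyPackage.freyCurve, FreyPackage.freyCurveInt, WeierstrassCurve.map_a₄,
      eq_intCast]
    rw [Int.cast_div h16 (by norm_num)]
    push_cast; ring
  · simp [FreyPackage.freyCurve, FreyPackage.freyCurveInt]

theorem freyCurveInt_isIntegralModelOf : P.freyCurveInt.IsIntegralModelOf P.freyCurve :=
  ⟨1, by rw [one_smul, freyCurve_eq_map]⟩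

theorem freyCurve_Δ : P.freyCurve.Δ =
    ((P.a : ℚ) ^ P.p * (P.b : ℚ) ^ P.p * ((P.a : ℚ) ^ P.p + (P.b : ℚ) ^ P.p)) ^ 2 / 256 := by
  simp only [WeierstrassCurve.Δ, WeierstrassCurve.b₂, WeierstrassCurve.b₄, WeierstrassCurve.b₆,
    WeierstrassCurve.b₈, FreyPackage.freyCurve]
  ring

theorem freyCurve_c₄ : P.freyCurve.c₄ =
    ((P.a : ℚ) ^ P.p) ^ 2 + (P.a : ℚ) ^ P.p * (P.b : ℚ) ^ P.p + ((P.b : ℚ) ^ P.p) ^ 2 := by
  simp only [WeierstrassCurve.c₄, WeierstrassCurve.b₂, WeierstrassCurve.b₄,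
    FreyPackage.freyCurve]
  ring

theorem freyCurveInt_Δ : 256 * P.freyCurveInt.Δ =
    (P.a ^ P.p * P.b ^ P.p * (P.a ^ P.p + P.b ^ P.p)) ^ 2 := by
  have h := freyCurve_Δ P
  rw [freyCurve_eq_map, WeierstrassCurve.map_Δ, eq_intCast] at h
  have h' : (256 : ℚ) * (P.freyCurveInt.Δ : ℚ) =
      ((P.a : ℚ) ^ P.p * (P.b : ℚ) ^ P.p * ((P.a : ℚ) ^ P.p + (P.b : ℚ) ^ P.p)) ^ 2 := by
    rw [h]; ring
  exact_mod_cast h'

theorem freyCurveInt_c₄ : P.freyCurveInt.c₄ =
    (P.a ^ P.p) ^ 2 + P.a ^ P.p * P.b ^ P.p + (P.b ^ P.p) ^ 2 := by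
  have h := freyCurve_c₄ P
  rw [freyCurve_eq_map, WeierstrassCurve.map_c₄, eq_intCast] at h
  exact_mod_cast h

theorem freyCurveInt_Δ_ne_zero : P.freyCurveInt.Δ ≠ 0 := by
  intro h0
  have h := freyCurveInt_Δ P
  rw [h0, mul_zero] at h
  have h1 : P.a ^ P.p * P.b ^ P.p * (P.a ^ P.p + P.b ^ P.p) = 0 := by
    exact pow_eq_zero_iff (two_ne_zero) |>.mp h.symm
  rw [P.hFLT] at h1
  exact mul_ne_zero (mul_ne_zero (pow_ne_zero _ P.ha0) (pow_ne_zero _ P.hb0))
    (pow_ne_zero _ P.hc0) h1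

theorem not_dvd_both {ℓ : ℕ} (hℓ : ℓ.Prime) (hx : (ℓ : ℤ) ∣ P.a ^ P.p)
    (hy : (ℓ : ℤ) ∣ P.b ^ P.p) : False := by
  have hprime : Prime (ℓ : ℤ) := Nat.prime_iff_prime_int.mp hℓ
  have h1 : (ℓ : ℤ) ∣ gcd P.a P.b :=
    dvd_gcd (hprime.dvd_of_dvd_pow hx) (hprime.dvd_of_dvd_pow hy)
  rw [P.hgcdab] at h1
  exact hprime.not_dvd_one h1

/-- `freyCurveInt` is a semistable model. -/
theorem freyCurveInt_isSemistableModel : P.freyCurveInt.IsSemistableModel := by
  intro ℓ hℓ hΔ hc₄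
  have hprime : Prime (ℓ : ℤ) := Nat.prime_iff_prime_int.mp hℓ
  rw [freyCurveInt_c₄] at hc₄
  have h1 : (ℓ : ℤ) ∣ (P.a ^ P.p * P.b ^ P.p * (P.a ^ P.p + P.b ^ P.p)) ^ 2 := by
    rw [← freyCurveInt_Δ]
    exact Dvd.dvd.mul_left hΔ 256
  have h2 := hprime.dvd_of_dvd_pow h1
  set A := P.a ^ P.p with hA
  set B := P.b ^ P.p with hB
  -- in each case `ℓ ∣ A` and `ℓ ∣ B`
  have key : (ℓ : ℤ) ∣ A ∧ (ℓ : ℤ) ∣ B := by
    rcases hprime.dvd_or_dvd h2 with h3 | h3
    · rcases hprime.dvd_or_dvd h3 with h4 | h4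
      · refine ⟨h4, hprime.dvd_of_dvd_pow (n := 2) ?_⟩
        have : B ^ 2 = (A ^ 2 + A * B + B ^ 2) - A * (A + B) := by ring
        rw [this]
        exact dvd_sub hc₄ (Dvd.dvd.mul_right h4 _)
      · refine ⟨hprime.dvd_of_dvd_pow (n := 2) ?_, h4⟩
        have : A ^ 2 = (A ^ 2 + A * B + B ^ 2) - B * (A + B) := by ring
        rw [this]
        exact dvd_sub hc₄ (Dvd.dvd.mul_right h4 _)
    · have h5 : (ℓ : ℤ) ∣ A * B := by
        have : A * B = (A + B) * (A + B) - (A ^ 2 + A * B + B ^ 2) := by ring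
        rw [this]
        exact dvd_sub (Dvd.dvd.mul_right h3 _) hc₄
      rcases hprime.dvd_or_dvd h5 with h4 | h4
      · exact ⟨h4, (dvd_add_right h4).mp h3⟩
      · exact ⟨(dvd_add_left h4).mp h3, h4⟩
  exact not_dvd_both P hℓ key.1 key.2

end FreyArith


/-! ### the Frey adapter -/

section Adapter

theorem map_map_Δ_ne_zero (W : WeierstrassCurve ℤ) (hΔ : W.Δ ≠ 0) :
    ((W.map (Int.castRingHom ℚ)).map (algebraMap ℚ (AlgebraicClosure ℚ))).Δ ≠ 0 := by
  rw [WeierstrassCurve.map_Δ, WeierstrassCurve.map_Δ]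
  simpa using hΔ

/-- `#W(ℚ̄)[p] = p²`. -/
theorem hcard_of_Δ_ne_zero (W : WeierstrassCurve ℤ) (hΔ : W.Δ ≠ 0) (p : ℕ) (hp : 1 ≤ p) :
    Nat.card (Submodule.torsionBy ℤ
      ((W.map (Int.castRingHom ℚ))⁄(AlgebraicClosure ℚ)).Point p) = p ^ 2 :=
  Fermat.Agent.GE.Tors.card_torsionBy (map_map_Δ_ne_zero W hΔ) p hp

/-- The Galois action on `W(ℚ̄)[p]` has finite level. -/
theorem hker_of_Δ_ne_zero (W : WeierstrassCurve ℤ) (hΔ : W.Δ ≠ 0) (p : ℕ) (hp : 1 ≤ p) :
    GaloisFactorsThroughFiniteLevel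
      (WeierstrassCurve.Affine.Point.galoisRepModuleEnd (K := AlgebraicClosure ℚ) ℚ
        (W.map (Int.castRingHom ℚ)) p) := by
  have : Finite (Submodule.torsionBy ℤ
      ((W.map (Int.castRingHom ℚ))⁄(AlgebraicClosure ℚ)).Point p) :=
    Fermat.Agent.GE.Tors.finite_torsionBy (map_map_Δ_ne_zero W hΔ) p hp
  exact Fermat.Agent.GJ.Pkg.finiteLevel_galoisRepModuleEnd (W.map (Int.castRingHom ℚ)) p

/-- irreducibility, transported to the semistable model. -/
theorem frey_irr (P : FreyPackage)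
    (hirr : GaloisRepIsIrreducible (K := AlgebraicClosure ℚ) ℚ P.freyCurve P.p) :
    P.freyCurveInt.ModRepIsIrreducible P.p := by
  unfold WeierstrassCurve.ModRepIsIrreducible
  rw [← freyCurve_eq_map P]
  exact hirr

/-- unramifiedness at `q`, transported to the semistable model. -/
theorem frey_unr (P : FreyPackage) [Fact P.p.Prime]
    (hcard₁ : Nat.card (Submodule.torsionBy ℤ
      ((P.freyCurveInt.map (Int.castRingHom ℚ))⁄(AlgebraicClosure ℚ)).Point P.p) = P.p ^ 2)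
    (hker : GaloisFactorsThroughFiniteLevel
      (WeierstrassCurve.Affine.Point.galoisRepModuleEnd (K := AlgebraicClosure ℚ) ℚ
        (P.freyCurveInt.map (Int.castRingHom ℚ)) P.p))
    {q : ℕ} (hunr : P.GaloisRepUnramifiedAt q) :
    ((P.freyCurveInt.map (Int.castRingHom ℚ)).residualGaloisRepOf P.p hcard₁
      hker).IsUnramifiedAt q := by
  have hunr2 : WeierstrassCurve.Affine.Point.GaloisRepUnramifiedAt (K := AlgebraicClosure ℚ) ℚ
      (P.freyCurveInt.map (Int.castRingHom ℚ)) P.p q := by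
    rw [← freyCurve_eq_map P]
    exact hunr
  intro A hA σ hσ
  show WeierstrassCurve.Affine.Point.galoisRepModuleEnd (K := AlgebraicClosure ℚ) ℚ
      (P.freyCurveInt.map (Int.castRingHom ℚ)) P.p σ = 1
  refine LinearMap.ext fun x => ?_
  rw [WeierstrassCurve.Affine.Point.galoisRepModuleEnd_apply]
  exact hunr2 A hA σ hσ x

theorem freyCurve_Δ_ne_zero (P : FreyPackage) : P.freyCurve.Δ ≠ 0 := by
  rw [freyCurve_eq_map P, WeierstrassCurve.map_Δ]
  simpa using freyCurveInt_Δ_ne_zero P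

/-- residual modularity of the semistable model from `ModularRepOfLevel` (model change). -/
theorem frey_res_of_mod (hmc : ModelChange) (P : FreyPackage) {N : ℕ}
    (hmod : P.ModularRepOfLevel N) : P.freyCurveInt.IsResiduallyModularOfLevel P.p N := by
  obtain ⟨f, W, 𝔪, hf, hW, hmax, hpm, hcong⟩ := hmod
  exact ⟨f, 𝔪, hf, hmax, hpm,
    hmc P.freyCurve (freyCurve_Δ_ne_zero P) W P.freyCurveInt hW (freyCurveInt_isIntegralModelOf P)
      P.p N P.pp f 𝔪 hf hmax hpm hcong⟩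

/-- `ModularRepOfLevel` from residual modularity of the semistable model. -/
theorem frey_mod_of_res (P : FreyPackage) {N : ℕ}
    (h : P.freyCurveInt.IsResiduallyModularOfLevel P.p N) : P.ModularRepOfLevel N := by
  obtain ⟨g, 𝔪', hg, hmax', hpm', hcong'⟩ := h
  exact ⟨g, P.freyCurveInt, 𝔪', hg, freyCurveInt_isIntegralModelOf P, hmax', hpm', hcong'⟩

/-- `FrobScalarAt` for a general curve over `ℚ`. -/
def FrobScalarCurve (E : WeierstrassCurve ℚ) (p q : ℕ) : Prop :=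
  ∀ A : ValuationSubring (AlgebraicClosure ℚ), A.LiesOverPrime q →
    ∀ φ : GQ, A.IsFrobeniusAt φ q →
      ∃ c : ℤ, ∀ x : Submodule.torsionBy ℤ (E⁄(AlgebraicClosure ℚ)).Point p, φ • x = c • x

theorem frobScalarAt_iff (P : FreyPackage) (q : ℕ) :
    FrobScalarAt P q ↔ FrobScalarCurve P.freyCurve P.p q := Iff.rfl

/-- scalar Frobenius: S38 shape ⟹ Frey-package shape. -/
theorem frobScalarAt_of_scalarFrob38 (P : FreyPackage) {q : ℕ}
    (h : ScalarFrob38 P.freyCurveInt P.p q) : FrobScalarAt P q := by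
  have key : FrobScalarCurve (P.freyCurveInt.map (Int.castRingHom ℚ)) P.p q := by
    intro A hA φ hφ
    obtain ⟨c, hc⟩ := h A hA φ hφ
    refine ⟨(c.cast : ℤ), fun x => ?_⟩
    have h1 := LinearMap.congr_fun hc x
    rw [WeierstrassCurve.Affine.Point.galoisRepModuleEnd_apply] at h1
    rw [h1, LinearMap.smul_apply, Module.End.one_apply, ← Int.cast_smul_eq_zsmul (ZMod P.p),
      ZMod.intCast_cast, ZMod.cast_id', id_eq]
  rw [frobScalarAt_iff, freyCurve_eq_map P]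
  exact key

/-- scalar Frobenius: Frey-package shape ⟹ S38 shape. -/
theorem scalarFrob38_of_frobScalarAt (P : FreyPackage) {q : ℕ}
    (h : FrobScalarAt P q) : ScalarFrob38 P.freyCurveInt P.p q := by
  have key : FrobScalarCurve (P.freyCurveInt.map (Int.castRingHom ℚ)) P.p q := by
    rw [frobScalarAt_iff, freyCurve_eq_map P] at h
    exact h
  intro A hA φ hφ
  obtain ⟨c, hc⟩ := key A hA φ hφ
  refine ⟨(c : ZMod P.p), LinearMap.ext fun x => ?_⟩
  rw [WeierstrassCurve.Affine.Point.galoisRepModuleEnd_apply, hc x, LinearMap.smul_apply,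
    Module.End.one_apply, Int.cast_smul_eq_zsmul]

/-- **Frozen S43 from the Ribet core and the model change.** -/
theorem s43_of_core (hcore : Core38) (hmc : ModelChange) (P : FreyPackage) {N q : ℕ}
    (hcond : P.IsConductorLevel N) (hq : q.Prime) (hq2 : q ≠ 2) (hqp : q ≠ P.p) (hqN : q ∣ N)
    (hirr : GaloisRepIsIrreducible (K := AlgebraicClosure ℚ) ℚ P.freyCurve P.p)
    (hmod : P.ModularRepOfLevel N) (hunr : P.GaloisRepUnramifiedAt q) :
    ∃ M : ℕ, M ∣ N ∧ ¬ q ∣ M ∧ P.ModularRepOfLevel M := by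
  have : Fact P.p.Prime := ⟨P.pp⟩
  have hp1 : 1 ≤ P.p := P.pp.one_lt.le
  have hΔ := freyCurveInt_Δ_ne_zero P
  have hcard₁ := hcard_of_Δ_ne_zero P.freyCurveInt hΔ P.p hp1
  have hker := hker_of_Δ_ne_zero P.freyCurveInt hΔ P.p hp1
  have hres' := hcore P.p P.hp5 P.freyCurveInt hΔ (freyCurveInt_isSemistableModel P) hcard₁ hker
    (frey_irr P hirr) N q hq hq2 hqp hqN hcond.squarefree (frey_unr P hcard₁ hker hunr)
    (frey_res_of_mod hmc P hmod)
  refine ⟨N / q, Nat.div_dvd_of_dvd hqN, ?_, frey_mod_of_res P hres'⟩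
  intro hdvd
  obtain ⟨k, hk⟩ := hqN
  have hk' : N / q = k := by rw [hk, Nat.mul_div_cancel_left _ hq.pos]
  rw [hk'] at hdvd
  obtain ⟨j, hj⟩ := hdvd
  have hsq : q * q ∣ N := ⟨j, by rw [hk, hj]; ring⟩
  exact hq.one_lt.ne' (Nat.isUnit_iff.mp (hcond.squarefree q hsq))

/-- **CASE A in Frey-package form** (`GB/Top/S43Top.CaseA`) from CASE A in S38 shape. -/
theorem caseA_of_caseA38 (hA : CaseA38) (hmc : ModelChange) : CaseA := by
  intro P N' q hcond hq hq2 hqp hirr hmod hunr hnot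
  have : Fact P.p.Prime := ⟨P.pp⟩
  have hp1 : 1 ≤ P.p := P.pp.one_lt.le
  have hΔ := freyCurveInt_Δ_ne_zero P
  have hcard₁ := hcard_of_Δ_ne_zero P.freyCurveInt hΔ P.p hp1
  have hker := hker_of_Δ_ne_zero P.freyCurveInt hΔ P.p hp1
  have hnot' : ¬ P.freyCurveInt.IsResiduallyModularOfLevel P.p (N' * q / q) := by
    rw [Nat.mul_div_cancel _ hq.pos]
    exact fun h => hnot (frey_mod_of_res P h)
  obtain ⟨h1, h2⟩ := hA P.p P.hp5 P.freyCurveInt hΔ (freyCurveInt_isSemistableModel P) hcard₁ hker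
    (frey_irr P hirr) (N' * q) q hq hq2 hqp (dvd_mul_left q N') hcond.squarefree
    (frey_unr P hcard₁ hker hunr) (frey_res_of_mod hmc P hmod) hnot'
  exact ⟨h1, frobScalarAt_of_scalarFrob38 P h2⟩

/-- **CASE B in Frey-package form** (`GB/Top/S43Top.CaseB`) from CASE B in S38 shape. -/
theorem caseB_of_caseB38 (hB : CaseB38) (hmc : ModelChange) : CaseB := by
  intro P N' q hcond hq hq2 hqp hirr hmod hunr h1 hs
  have : Fact P.p.Prime := ⟨P.pp⟩
  have hp1 : 1 ≤ P.p := P.pp.one_lt.le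
  have hΔ := freyCurveInt_Δ_ne_zero P
  have hcard₁ := hcard_of_Δ_ne_zero P.freyCurveInt hΔ P.p hp1
  have hker := hker_of_Δ_ne_zero P.freyCurveInt hΔ P.p hp1
  have hres' := hB P.p P.hp5 P.freyCurveInt hΔ (freyCurveInt_isSemistableModel P) hcard₁ hker
    (frey_irr P hirr) (N' * q) q hq hq2 hqp (dvd_mul_left q N') hcond.squarefree
    (frey_unr P hcard₁ hker hunr) (frey_res_of_mod hmc P hmod) h1
    (scalarFrob38_of_frobScalarAt P hs)
  rw [Nat.mul_div_cancel _ hq.pos] at hres'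
  exact frey_mod_of_res P hres'

end Adapter

end Fermat.Agent.GB.Top.S43Frey
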