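/-
GATE-B / TOP, leaf MODELCHANGE (helper79): the residual congruences `a_ℓ(f) ≡ a_ℓ(W) (mod 𝔪)`
between a normalised eigenform `f` and an elliptic curve `E/ℚ` do not depend on the integral model
`W` of `E` used to count points: `modelChange : S43Frey.ModelChange`.

Proof.  Let `ℓ₀` be good for `W'`, `ℓ₀ ∤ N`, `ℓ₀ ≠ p`, `σ₀` a Frobenius at `ℓ₀`.  Chebotarev
(`GP/TW/ChebExist.exists_prime_forall_frob`) for `ρ̄_f × (G_ℚ → End E[p])` (`ρ̄_f` from S29) gives a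
prime `ℓ₁` good for `W` and `W'`, `ℓ₁ ∤ N p`, and a Frobenius `τ` at `ℓ₁` with the same image as a
conjugate `σ' = g σ₀ g⁻¹`.  On the modular side the characteristic polynomials
`X² - a_{ℓ₁}(f) X + ℓ₁` and `X² - a_{ℓ₀}(f) X + ℓ₀` agree in `k = ℤ̄/𝔪`.  On `E[p]` the Frobenius
relations `τ² - a_{ℓ₁}(W) τ + ℓ₁ = 0` (model `W`) and `σ'² - a_{ℓ₀}(W') σ' + ℓ₀ = 0` (model `W'`,
`GE/Top/ECFinal.frobRel`, transported along the variable changes) subtract to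
`(a_{ℓ₁}(W) - a_{ℓ₀}(W')) τ = 0` on `E[p]`, so `p ∣ a_{ℓ₁}(W) - a_{ℓ₀}(W')`.  No determinant / Weil
pairing and no irreducibility is used.
-/
import Mathlib
import Fermat.Agent.GB.Top.S43Frey
import Fermat.Agent.GE.Top.ECFinal
import Fermat.Agent.S05.VarChange
import Fermat.Agent.GP.TW.ChebExist
import Fermat.Agent.S29
import Fermat.Agent.Common_helper32.FrobeniusExists

set_option autoImplicit false

open Fermat.Agent.Common_helper32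
open WeierstrassCurve WeierstrassCurve.Affine.Point
open scoped WeierstrassCurve.Affine
open Polynomial

namespace Fermat.Agent.GB.Top.ModelChangeProof

/-! ### small tools -/

theorem charP_quot {R : Type*} [CommRing R] (𝔪 : Ideal R) [𝔪.IsMaximal] {p : ℕ}
    (hp : p.Prime) (hmem : (p : R) ∈ 𝔪) : CharP (R ⧸ 𝔪) p := by
  let _ : Field (R ⧸ 𝔪) := Ideal.Quotient.field 𝔪
  obtain ⟨q, hq⟩ := CharP.exists (R ⧸ 𝔪)
  have h0 : ((p : ℕ) : R ⧸ 𝔪) = 0 := by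
    have : (Ideal.Quotient.mk 𝔪) (p : R) = 0 := Ideal.Quotient.eq_zero_iff_mem.mpr hmem
    rwa [map_natCast] at this
  have hdvd : q ∣ p := (CharP.cast_eq_zero_iff (R ⧸ 𝔪) q p).mp h0
  rcases (Nat.dvd_prime hp).mp hdvd with h1 | h1
  · exfalso
    subst h1
    exact CharP.char_ne_one (R ⧸ 𝔪) 1 rfl
  · subst h1
    exact hq

/-- the discriminant of an integral model of a curve with `Δ ≠ 0` is nonzero -/
theorem Δ_ne_zero_of_model (E : WeierstrassCurve ℚ) (hE : E.Δ ≠ 0)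
    {W : WeierstrassCurve ℤ} (hW : W.IsIntegralModelOf E) : W.Δ ≠ 0 := by
  obtain ⟨C, hC⟩ := hW
  intro h0
  have h1 : (C • E).Δ = 0 := by
    rw [hC, WeierstrassCurve.map_Δ, h0, _root_.map_zero]
  rw [WeierstrassCurve.variableChange_Δ] at h1
  rcases mul_eq_zero.mp h1 with h2 | h2
  · exact (pow_ne_zero 12 (Units.ne_zero _)) h2
  · exact hE h2

/-- coefficients of `X² - c X + d` -/
theorem coeffs_of_quad_eq {k : Type*} [Field k] {c d c' d' : k}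
    (h : (X ^ 2 - C c * X + C d : k[X]) = X ^ 2 - C c' * X + C d') : c = c' ∧ d = d' := by
  have h1 := congrArg (fun q : k[X] => q.coeff 1) h
  have h0 := congrArg (fun q : k[X] => q.coeff 0) h
  simp only [coeff_add, coeff_sub, coeff_X_pow, coeff_C_mul, coeff_X_one,
    coeff_X_zero, coeff_C] at h1 h0
  norm_num at h1 h0
  exact ⟨h1, h0⟩

/-! ### the Galois action on points (rewriting lemmas with the Prelude instance) -/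

section Action

variable (E : WeierstrassCurve ℚ)

theorem gsmul_zero (g : GQ) : g • (0 : (E⁄Qb).Point) = 0 := rfl

theorem gsmul_add (g : GQ) (X Y : (E⁄Qb).Point) : g • (X + Y) = g • X + g • Y := by
  exact smul_add g X Y

theorem gsmul_sub (g : GQ) (X Y : (E⁄Qb).Point) : g • (X - Y) = g • X - g • Y := by
  exact smul_sub g X Y

theorem gsmul_zsmul (g : GQ) (m : ℤ) (X : (E⁄Qb).Point) : g • (m • X) = m • (g • X) :=
  algEquiv_smul_zsmul g m X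

theorem gmul_smul (g h : GQ) (X : (E⁄Qb).Point) : (g * h) • X = g • h • X := by
  exact mul_smul g h X

theorem ginv_smul_smul (g : GQ) (X : (E⁄Qb).Point) : g⁻¹ • g • X = X := by
  exact inv_smul_smul g X

theorem gsmul_inv_smul (g : GQ) (X : (E⁄Qb).Point) : g • g⁻¹ • X = X := by
  exact smul_inv_smul g X

theorem nsmul_gsmul_eq_zero (g : GQ) {p : ℕ} {X : (E⁄Qb).Point} (hX : p • X = 0) :
    p • (g • X) = 0 := by
  rw [← natCast_zsmul, ← gsmul_zsmul, natCast_zsmul, hX, gsmul_zero]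

end Action

/-! ### the Frobenius relation on `E[p]` from any integral model -/

/-- **Frobenius relation** on the `p`-torsion of `E(ℚ̄)` at a good prime `ℓ ≠ p` of an integral
model `W` of `E`. -/
theorem frobRel_of_model (E : WeierstrassCurve ℚ) {W : WeierstrassCurve ℤ}
    (hW : W.IsIntegralModelOf E) {p ℓ : ℕ} (hp : p.Prime) (hℓ : ℓ.Prime) (hℓp : ℓ ≠ p)
    (hgood : ¬ (ℓ : ℤ) ∣ W.Δ) (A : ValuationSubring Qb) (hA : A.LiesOverPrime ℓ) (τ : GQ)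
    (hτ : A.IsFrobeniusAt τ ℓ) (P : (E⁄Qb).Point) (hP : p • P = 0) :
    τ • τ • P - W.apOfModel ℓ • τ • P + (ℓ : ℤ) • P = 0 := by
  obtain ⟨C, hC⟩ := hW
  have h1 : ∀ WQ : WeierstrassCurve ℚ, WQ = W.map (Int.castRingHom ℚ) →
      ∀ Q : (WQ⁄Qb).Point, p • Q = 0 →
        τ • τ • Q - W.apOfModel ℓ • τ • Q + (ℓ : ℤ) • Q = 0 := by
    intro WQ h
    subst h
    intro Q hQ
    exact Fermat.Agent.GE.ECFinal.frobRel W hp 1 ℓ hℓ hℓp hgood A hA τ hτ Q (by rwa [pow_one])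
  set e := Fermat.Agent.S05.vcBaseChangeEquiv (K := Qb) E C with he
  have hsm : ∀ Q, e (τ • Q) = τ • e Q :=
    fun Q => Fermat.Agent.S05.vcBaseChangeEquiv_smul (S := ℚ) E C τ Q
  have h2 : p • e.symm P = 0 := by rw [← map_nsmul, hP, _root_.map_zero]
  have h3 := h1 (C • E) hC (e.symm P) h2
  have h4 := congrArg e h3
  rw [map_add, map_sub, map_zsmul, map_zsmul, hsm, hsm, AddEquiv.apply_symm_apply,
    _root_.map_zero] at h4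
  exact h4

/-- The Frobenius relation passes to conjugates. -/
theorem rel_conj (E : WeierstrassCurve ℚ) {p : ℕ} (a l : ℤ) (σ g : GQ)
    (h : ∀ P : (E⁄Qb).Point, p • P = 0 → σ • σ • P - a • σ • P + l • P = 0)
    (P : (E⁄Qb).Point) (hP : p • P = 0) :
    (g * σ * g⁻¹) • (g * σ * g⁻¹) • P - a • (g * σ * g⁻¹) • P + l • P = 0 := by
  have hQ : p • (g⁻¹ • P) = 0 := nsmul_gsmul_eq_zero E g⁻¹ hP
  have h1 := h (g⁻¹ • P) hQ
  have h2 : g • (σ • σ • g⁻¹ • P - a • σ • g⁻¹ • P + l • g⁻¹ • P) =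
      g • (0 : (E⁄Qb).Point) := by rw [h1]
  rw [gsmul_zero, gsmul_add, gsmul_sub, gsmul_zsmul, gsmul_zsmul, gsmul_inv_smul] at h2
  have e2 : (g * σ * g⁻¹) • P = g • σ • g⁻¹ • P := by
    rw [gmul_smul, gmul_smul]
  have e1 : (g * σ * g⁻¹) • (g * σ * g⁻¹) • P = g • σ • σ • g⁻¹ • P := by
    rw [e2, gmul_smul, gmul_smul, ginv_smul_smul]
  rw [e1, e2]
  exact h2

/-! ### the main theorem -/

/-- **Model change.** -/
theorem modelChange : Fermat.Agent.GB.Top.S43Frey.ModelChange := by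
  intro E hEΔ W W' hW hW' p N hp f 𝔪 hf hmax hpm hcong ℓ₀ hℓ₀ hgood₀ hℓ₀N hℓ₀p
  have := hmax
  let _ : Field (integralClosure ℤ ℂ ⧸ 𝔪) := Ideal.Quotient.field 𝔪
  have : CharP (integralClosure ℤ ℂ ⧸ 𝔪) p := charP_quot 𝔪 hp hpm
  have : Fact p.Prime := ⟨hp⟩
  obtain ⟨ρf, hatt, -⟩ := Fermat.Agent.S29.result hf hp (Ideal.Quotient.mk 𝔪)
  -- `E[p]`
  have hΔQb : (E⁄Qb).Δ ≠ 0 := by
    change (E.map (algebraMap ℚ Qb)).Δ ≠ 0
    rw [WeierstrassCurve.map_Δ]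
    exact (_root_.map_ne_zero _).mpr hEΔ
  have : Finite (Submodule.torsionBy ℤ (E⁄Qb).Point p) :=
    Fermat.Agent.GE.Tors.finite_torsionBy hΔQb p hp.one_le
  have hEker := Fermat.Agent.GJ.Pkg.finiteLevel_galoisRepModuleEnd E p
  have hmem : ∀ Q : (E⁄Qb).Point, p • Q = 0 →
      Q ∈ Submodule.torsionBy ℤ (E⁄Qb).Point (p : ℤ) := fun Q hQ => by
    rw [Submodule.mem_torsionBy_iff, natCast_zsmul]
    exact hQ
  have hWΔ := Δ_ne_zero_of_model E hEΔ hW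
  have hW'Δ := Δ_ne_zero_of_model E hEΔ hW'
  have hN0 : N ≠ 0 := by
    rintro rfl
    exact hℓ₀N (dvd_zero _)
  -- a Frobenius at `ℓ₀`
  obtain ⟨A₀, hA₀⟩ := exists_liesOverPrime ℓ₀ hℓ₀
  obtain ⟨σ₀, hσ₀⟩ := exists_isFrobeniusAt_of_liesOver A₀ ℓ₀ hℓ₀ hA₀
  -- Chebotarev
  let B : Finset ℕ := N.primeFactors ∪ {p} ∪ W.Δ.natAbs.primeFactors ∪ W'.Δ.natAbs.primeFactors
  obtain ⟨ℓ₁, hℓ₁, hℓ₁B, hfrob⟩ := Fermat.Agent.GP.TW.ChebExist.exists_prime_forall_frob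
    (ρf.ρ.prod (galoisRepModuleEnd (K := Qb) ℚ E p))
    (Fermat.Agent.GP.TW.ChebExist.factorsThroughFiniteLevel_prod _ _
      ρf.factorsThroughFiniteLevel hEker) σ₀ B
  have hℓ₁N : ¬ ℓ₁ ∣ N := fun h => hℓ₁B (by
    simp only [B, Finset.mem_union]
    exact Or.inl (Or.inl (Or.inl (Nat.mem_primeFactors.mpr ⟨hℓ₁, h, hN0⟩))))
  have hℓ₁p : ℓ₁ ≠ p := fun h => hℓ₁B (by
    simp only [B, Finset.mem_union, Finset.mem_singleton]
    exact Or.inl (Or.inl (Or.inr h)))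
  have hℓ₁W : ¬ (ℓ₁ : ℤ) ∣ W.Δ := fun h => hℓ₁B (by
    simp only [B, Finset.mem_union]
    exact Or.inl (Or.inr (Nat.mem_primeFactors.mpr
      ⟨hℓ₁, Int.natCast_dvd.mp h, Int.natAbs_ne_zero.mpr hWΔ⟩)))
  obtain ⟨A₁, hA₁⟩ := exists_liesOverPrime ℓ₁ hℓ₁
  obtain ⟨τ, hτ⟩ := exists_isFrobeniusAt_of_liesOver A₁ ℓ₁ hℓ₁ hA₁
  obtain ⟨g, hg⟩ := hfrob A₁ τ hA₁ hτ
  have hg1 : ρf.ρ τ = ρf.ρ (g * σ₀ * g⁻¹) := congrArg Prod.fst hg
  have hg2 : galoisRepModuleEnd (K := Qb) ℚ E p τ =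
      galoisRepModuleEnd (K := Qb) ℚ E p (g * σ₀ * g⁻¹) := congrArg Prod.snd hg
  -- the modular side
  have hne : ∀ ℓ : ℕ, ℓ.Prime → ℓ ≠ p → ((ℓ : ℕ) : integralClosure ℤ ℂ ⧸ 𝔪) ≠ 0 := by
    intro ℓ hℓ hℓp h0
    have := (CharP.cast_eq_zero_iff (integralClosure ℤ ℂ ⧸ 𝔪) p ℓ).mp h0
    exact hℓp ((Nat.prime_dvd_prime_iff_eq hp hℓ).mp this).symm
  obtain ⟨a₁, ha₁, hchar₁⟩ := hatt ℓ₁ hℓ₁ hℓ₁N (hne ℓ₁ hℓ₁ hℓ₁p) A₁ hA₁ τ hτ
  obtain ⟨a₀, ha₀, hchar₀⟩ := hatt ℓ₀ hℓ₀ hℓ₀N (hne ℓ₀ hℓ₀ hℓ₀p) A₀ hA₀ σ₀ hσ₀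
  have hconj : LinearMap.charpoly (ρf.ρ (g * σ₀ * g⁻¹)) = LinearMap.charpoly (ρf.ρ σ₀) := by
    let e : ρf.V ≃ₗ[integralClosure ℤ ℂ ⧸ 𝔪] ρf.V :=
      LinearEquiv.ofLinearMap (ρf.ρ g) (ρf.ρ g⁻¹)
        (by rw [← Module.End.mul_eq_comp, ← map_mul, mul_inv_cancel, map_one]; rfl)
        (by rw [← Module.End.mul_eq_comp, ← map_mul, inv_mul_cancel, map_one]; rfl)
    have he : e.conj (ρf.ρ σ₀) = ρf.ρ (g * σ₀ * g⁻¹) := by
      rw [map_mul, map_mul]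
      rfl
    rw [← he, LinearEquiv.charpoly_conj]
  have hpoly : (X ^ 2 - C ((Ideal.Quotient.mk 𝔪) a₁) * X + C ((ℓ₁ : ℕ) : integralClosure ℤ ℂ ⧸ 𝔪) :
      (integralClosure ℤ ℂ ⧸ 𝔪)[X]) =
      X ^ 2 - C ((Ideal.Quotient.mk 𝔪) a₀) * X + C ((ℓ₀ : ℕ) : integralClosure ℤ ℂ ⧸ 𝔪) := by
    rw [← hchar₁, ← hchar₀, hg1, hconj]
  obtain ⟨hφa, hφℓ⟩ := coeffs_of_quad_eq hpoly
  -- `p ∣ ℓ₁ - ℓ₀`
  have hpℓ : (p : ℤ) ∣ (ℓ₁ : ℤ) - (ℓ₀ : ℤ) := by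
    have h1 : (((ℓ₁ : ℤ) - (ℓ₀ : ℤ) : ℤ) : integralClosure ℤ ℂ ⧸ 𝔪) = 0 := by
      push_cast
      rw [hφℓ, sub_self]
    exact (CharP.intCast_eq_zero_iff (integralClosure ℤ ℂ ⧸ 𝔪) p _).mp h1
  -- the hypothesis at `ℓ₁`
  obtain ⟨a₁', ha₁', hmem₁⟩ := hcong ℓ₁ hℓ₁ hℓ₁W hℓ₁N hℓ₁p
  have ha₁eq : a₁ = a₁' := Subtype.ext (ha₁.trans ha₁'.symm)
  -- the elliptic side: `p ∣ a_{ℓ₁}(W) - a_{ℓ₀}(W')`
  have hrel₁ : ∀ P : (E⁄Qb).Point, p • P = 0 →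
      τ • τ • P - W.apOfModel ℓ₁ • τ • P + (ℓ₁ : ℤ) • P = 0 :=
    fun P hP => frobRel_of_model E hW hp hℓ₁ hℓ₁p hℓ₁W A₁ hA₁ τ hτ P hP
  have hrel₀ : ∀ P : (E⁄Qb).Point, p • P = 0 →
      (g * σ₀ * g⁻¹) • (g * σ₀ * g⁻¹) • P - W'.apOfModel ℓ₀ • (g * σ₀ * g⁻¹) • P
        + (ℓ₀ : ℤ) • P = 0 :=
    fun P hP => rel_conj E (W'.apOfModel ℓ₀) (ℓ₀ : ℤ) σ₀ g
      (fun Q hQ => frobRel_of_model E hW' hp hℓ₀ hℓ₀p hgood₀ A₀ hA₀ σ₀ hσ₀ Q hQ) P hP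
  have hsame : ∀ P : (E⁄Qb).Point, p • P = 0 → τ • P = (g * σ₀ * g⁻¹) • P := by
    intro P hP
    have h1 := LinearMap.congr_fun hg2 ⟨P, hmem P hP⟩
    rw [galoisRepModuleEnd_apply, galoisRepModuleEnd_apply] at h1
    exact congrArg Subtype.val h1
  have hτp : ∀ P : (E⁄Qb).Point, p • P = 0 → p • (τ • P) = 0 :=
    fun P hP => nsmul_gsmul_eq_zero E τ hP
  have hkill : ∀ Q : (E⁄Qb).Point, p • Q = 0 →
      (W.apOfModel ℓ₁ - W'.apOfModel ℓ₀) • Q = 0 := by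
    intro Q hQ
    -- `Q = τ • P`
    set P := τ⁻¹ • Q with hPdef
    have hP : p • P = 0 := nsmul_gsmul_eq_zero E τ⁻¹ hQ
    have hτP : τ • P = Q := gsmul_inv_smul E τ Q
    have r1 := hrel₁ P hP
    have r0 := hrel₀ P hP
    rw [← hsame P hP, ← hsame (τ • P) (hτp P hP)] at r0
    have hl : ((ℓ₁ : ℤ) - (ℓ₀ : ℤ)) • P = 0 := by
      obtain ⟨m, hm⟩ := hpℓ
      rw [hm, mul_comm, mul_smul, natCast_zsmul, hP]
      exact zsmul_zero m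
    have : (W.apOfModel ℓ₁ - W'.apOfModel ℓ₀) • (τ • P) =
        (τ • τ • P - W'.apOfModel ℓ₀ • τ • P + (ℓ₀ : ℤ) • P)
          - (τ • τ • P - W.apOfModel ℓ₁ • τ • P + (ℓ₁ : ℤ) • P)
          + ((ℓ₁ : ℤ) - (ℓ₀ : ℤ)) • P := by
      simp only [sub_smul]
      abel
    rw [← hτP, this, r0, r1, hl]
    simp
  have hdvd : (p : ℤ) ∣ W.apOfModel ℓ₁ - W'.apOfModel ℓ₀ := by
    obtain ⟨Q, hQ⟩ := Fermat.Agent.GE.Tors.exists_addOrderOf_eq_prime_pow hΔQb hp 1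
    rw [pow_one] at hQ
    have hQp : p • Q = 0 := by rw [← hQ]; exact addOrderOf_nsmul_eq_zero Q
    have := hkill Q hQp
    rw [← hQ]
    exact addOrderOf_dvd_iff_zsmul_eq_zero.mpr this
  -- conclusion
  refine ⟨a₀, ha₀, ?_⟩
  have h1 : (Ideal.Quotient.mk 𝔪) a₀ = (Ideal.Quotient.mk 𝔪) a₁ := hφa.symm
  have h2 : (Ideal.Quotient.mk 𝔪) a₁ =
      (Ideal.Quotient.mk 𝔪) ((W.apOfModel ℓ₁ : ℤ) : integralClosure ℤ ℂ) := by
    rw [ha₁eq]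
    exact Ideal.Quotient.eq.mpr hmem₁
  have h3 : (Ideal.Quotient.mk 𝔪) ((W.apOfModel ℓ₁ : ℤ) : integralClosure ℤ ℂ) =
      (Ideal.Quotient.mk 𝔪) ((W'.apOfModel ℓ₀ : ℤ) : integralClosure ℤ ℂ) := by
    rw [Ideal.Quotient.eq]
    obtain ⟨m, hm⟩ := hdvd
    have : ((W.apOfModel ℓ₁ : ℤ) : integralClosure ℤ ℂ) - ((W'.apOfModel ℓ₀ : ℤ) : integralClosure ℤ ℂ)
        = (p : integralClosure ℤ ℂ) * (m : integralClosure ℤ ℂ) := by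
      rw [← Int.cast_sub, hm]
      push_cast
      ring
    rw [this]
    exact 𝔪.mul_mem_right _ hpm
  exact Ideal.Quotient.eq.mp (h1.trans (h2.trans h3))

end Fermat.Agent.GB.Top.ModelChangeProof
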