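/-
GATE-B / TOP, leaf CONGR-EXTEND (helper79, asked by helper35 5202 for A6's killer / the `ℓ = q`
adapter): `ModelChange.modelChange` with a FINITE EXCEPTIONAL SET.

`congr_extend` : `E/ℚ` with `Δ ≠ 0`, `W`, `W'` integral models of `E`, `f` a normalised eigenform of
level `N`, `𝔪 ∋ p` maximal in `ℤ̄`.  If `a_ℓ(f) ≡ a_ℓ(W) (mod 𝔪)` for all good primes `ℓ ∤ N p` of
`W` OUTSIDE a finite set `B₀`, then `a_ℓ(f) ≡ a_ℓ(W') (mod 𝔪)` for ALL good primes `ℓ ∤ N p` of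
`W'`.  (`W' = W`: the congruences extend to the exceptional primes, e.g. to `ℓ = q`.)

`isResiduallyModularOfLevel_of_cofinite` : the same as `W.IsResiduallyModularOfLevel p N`.

Proof = `modelChange` verbatim, Chebotarev avoiding `B₀` as well.
-/
import Fermat.Agent.GB.Top.ModelChange

set_option autoImplicit false

open Fermat.Agent.Common_helper32
open WeierstrassCurve WeierstrassCurve.Affine.Point
open scoped WeierstrassCurve.Affine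
open Polynomial

namespace Fermat.Agent.GB.Top.CongrExtend

open Fermat.Agent.GB.Top.ModelChangeProof

/-- **Extension of residual congruences** from the good primes of `W` outside a finite set `B` to
ALL good primes `ℓ ∤ N p` of any integral model `W'` of the same curve. -/
theorem congr_extend (E : WeierstrassCurve ℚ) (hEΔ : E.Δ ≠ 0) (W W' : WeierstrassCurve ℤ)
    (hW : W.IsIntegralModelOf E) (hW' : W'.IsIntegralModelOf E) {p N : ℕ} (hp : p.Prime)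
    (B₀ : Finset ℕ) (f : CuspForm (CongruenceSubgroup.Gamma0 N) 2)
    (𝔪 : Ideal (integralClosure ℤ ℂ)) (hf : f.IsNormalizedEigenform) (hmax : 𝔪.IsMaximal)
    (hpm : (p : integralClosure ℤ ℂ) ∈ 𝔪)
    (hcong : ∀ ℓ : ℕ, ℓ.Prime → ℓ ∉ B₀ → W.IsGoodPrimeFor ℓ → ¬ ℓ ∣ N → ℓ ≠ p →
      ∃ a : integralClosure ℤ ℂ, (a : ℂ) = ModularFormClass.qCoeff f ℓ ∧
        a - ((W.apOfModel ℓ : ℤ) : integralClosure ℤ ℂ) ∈ 𝔪) :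
    ∀ ℓ : ℕ, ℓ.Prime → W'.IsGoodPrimeFor ℓ → ¬ ℓ ∣ N → ℓ ≠ p →
      ∃ a : integralClosure ℤ ℂ, (a : ℂ) = ModularFormClass.qCoeff f ℓ ∧
        a - ((W'.apOfModel ℓ : ℤ) : integralClosure ℤ ℂ) ∈ 𝔪 := by
  intro ℓ₀ hℓ₀ hgood₀ hℓ₀N hℓ₀p
  have := hmax
  let _ : Field (integralClosure ℤ ℂ ⧸ 𝔪) := Ideal.Quotient.field 𝔪
  have : CharP (integralClosure ℤ ℂ ⧸ 𝔪) p := charP_quot 𝔪 hp hpm
  have : Fact p.Prime := ⟨hp⟩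
  obtain ⟨ρf, hatt, -⟩ := Fermat.Agent.S29.result hf hp (Ideal.Quotient.mk 𝔪)
  -- `E[p]`
  have hΔQb : (E⁄Qb).Δ ≠ 0 := by
    change (E.map (algebraMap ℚ Qb)).Δ ≠ 0
    rw [WeierstrassCurve.map_Δ]
    exact (_root_.map_ne_zero _).mpr hEΔ
  have : Finite (Submodule.torsionBy ℤ (E⁄Qb).Point p) :=
    Fermat.Agent.GE.Tors.finite_torsionBy hΔQb p hp.one_le
  have hEker := Fermat.Agent.GJ.Pkg.finiteLevel_galoisRepModuleEnd E p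
  have hmem : ∀ Q : (E⁄Qb).Point, p • Q = 0 →
      Q ∈ Submodule.torsionBy ℤ (E⁄Qb).Point (p : ℤ) := fun Q hQ => by
    rw [Submodule.mem_torsionBy_iff, natCast_zsmul]
    exact hQ
  have hWΔ := Δ_ne_zero_of_model E hEΔ hW
  have hW'Δ := Δ_ne_zero_of_model E hEΔ hW'
  have hN0 : N ≠ 0 := by
    rintro rfl
    exact hℓ₀N (dvd_zero _)
  -- a Frobenius at `ℓ₀`
  obtain ⟨A₀, hA₀⟩ := exists_liesOverPrime ℓ₀ hℓ₀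
  obtain ⟨σ₀, hσ₀⟩ := exists_isFrobeniusAt_of_liesOver A₀ ℓ₀ hℓ₀ hA₀
  -- Chebotarev
  let B : Finset ℕ :=
    N.primeFactors ∪ {p} ∪ W.Δ.natAbs.primeFactors ∪ W'.Δ.natAbs.primeFactors ∪ B₀
  obtain ⟨ℓ₁, hℓ₁, hℓ₁B, hfrob⟩ := Fermat.Agent.GP.TW.ChebExist.exists_prime_forall_frob
    (ρf.ρ.prod (galoisRepModuleEnd (K := Qb) ℚ E p))
    (Fermat.Agent.GP.TW.ChebExist.factorsThroughFiniteLevel_prod _ _
      ρf.factorsThroughFiniteLevel hEker) σ₀ B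
  have hℓ₁N : ¬ ℓ₁ ∣ N := fun h => hℓ₁B (by
    simp only [B, Finset.mem_union]
    exact Or.inl (Or.inl (Or.inl (Or.inl (Nat.mem_primeFactors.mpr ⟨hℓ₁, h, hN0⟩)))))
  have hℓ₁p : ℓ₁ ≠ p := fun h => hℓ₁B (by
    simp only [B, Finset.mem_union, Finset.mem_singleton]
    exact Or.inl (Or.inl (Or.inl (Or.inr h))))
  have hℓ₁W : ¬ (ℓ₁ : ℤ) ∣ W.Δ := fun h => hℓ₁B (by
    simp only [B, Finset.mem_union]
    exact Or.inl (Or.inl (Or.inr (Nat.mem_primeFactors.mpr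
      ⟨hℓ₁, Int.natCast_dvd.mp h, Int.natAbs_ne_zero.mpr hWΔ⟩))))
  have hℓ₁B₀ : ℓ₁ ∉ B₀ := fun h => hℓ₁B (by
    simp only [B, Finset.mem_union]
    exact Or.inr h)
  obtain ⟨A₁, hA₁⟩ := exists_liesOverPrime ℓ₁ hℓ₁
  obtain ⟨τ, hτ⟩ := exists_isFrobeniusAt_of_liesOver A₁ ℓ₁ hℓ₁ hA₁
  obtain ⟨g, hg⟩ := hfrob A₁ τ hA₁ hτ
  have hg1 : ρf.ρ τ = ρf.ρ (g * σ₀ * g⁻¹) := congrArg Prod.fst hg
  have hg2 : galoisRepModuleEnd (K := Qb) ℚ E p τ =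
      galoisRepModuleEnd (K := Qb) ℚ E p (g * σ₀ * g⁻¹) := congrArg Prod.snd hg
  -- the modular side
  have hne : ∀ ℓ : ℕ, ℓ.Prime → ℓ ≠ p → ((ℓ : ℕ) : integralClosure ℤ ℂ ⧸ 𝔪) ≠ 0 := by
    intro ℓ hℓ hℓp h0
    have := (CharP.cast_eq_zero_iff (integralClosure ℤ ℂ ⧸ 𝔪) p ℓ).mp h0
    exact hℓp ((Nat.prime_dvd_prime_iff_eq hp hℓ).mp this).symm
  obtain ⟨a₁, ha₁, hchar₁⟩ := hatt ℓ₁ hℓ₁ hℓ₁N (hne ℓ₁ hℓ₁ hℓ₁p) A₁ hA₁ τ hτ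
  obtain ⟨a₀, ha₀, hchar₀⟩ := hatt ℓ₀ hℓ₀ hℓ₀N (hne ℓ₀ hℓ₀ hℓ₀p) A₀ hA₀ σ₀ hσ₀
  have hconj : LinearMap.charpoly (ρf.ρ (g * σ₀ * g⁻¹)) = LinearMap.charpoly (ρf.ρ σ₀) := by
    let e : ρf.V ≃ₗ[integralClosure ℤ ℂ ⧸ 𝔪] ρf.V :=
      LinearEquiv.ofLinearMap (ρf.ρ g) (ρf.ρ g⁻¹)
        (by rw [← Module.End.mul_eq_comp, ← map_mul, mul_inv_cancel, map_one]; rfl)
        (by rw [← Module.End.mul_eq_comp, ← map_mul, inv_mul_cancel, map_one]; rfl)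
    have he : e.conj (ρf.ρ σ₀) = ρf.ρ (g * σ₀ * g⁻¹) := by
      rw [map_mul, map_mul]
      rfl
    rw [← he, LinearEquiv.charpoly_conj]
  have hpoly : (X ^ 2 - C ((Ideal.Quotient.mk 𝔪) a₁) * X + C ((ℓ₁ : ℕ) : integralClosure ℤ ℂ ⧸ 𝔪) :
      (integralClosure ℤ ℂ ⧸ 𝔪)[X]) =
      X ^ 2 - C ((Ideal.Quotient.mk 𝔪) a₀) * X + C ((ℓ₀ : ℕ) : integralClosure ℤ ℂ ⧸ 𝔪) := by
    rw [← hchar₁, ← hchar₀, hg1, hconj]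
  obtain ⟨hφa, hφℓ⟩ := coeffs_of_quad_eq hpoly
  -- `p ∣ ℓ₁ - ℓ₀`
  have hpℓ : (p : ℤ) ∣ (ℓ₁ : ℤ) - (ℓ₀ : ℤ) := by
    have h1 : (((ℓ₁ : ℤ) - (ℓ₀ : ℤ) : ℤ) : integralClosure ℤ ℂ ⧸ 𝔪) = 0 := by
      push_cast
      rw [hφℓ, sub_self]
    exact (CharP.intCast_eq_zero_iff (integralClosure ℤ ℂ ⧸ 𝔪) p _).mp h1
  -- the hypothesis at `ℓ₁`
  obtain ⟨a₁', ha₁', hmem₁⟩ := hcong ℓ₁ hℓ₁ hℓ₁B₀ hℓ₁W hℓ₁N hℓ₁p
  have ha₁eq : a₁ = a₁' := Subtype.ext (ha₁.trans ha₁'.symm)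
  -- the elliptic side: `p ∣ a_{ℓ₁}(W) - a_{ℓ₀}(W')`
  have hrel₁ : ∀ P : (E⁄Qb).Point, p • P = 0 →
      τ • τ • P - W.apOfModel ℓ₁ • τ • P + (ℓ₁ : ℤ) • P = 0 :=
    fun P hP => frobRel_of_model E hW hp hℓ₁ hℓ₁p hℓ₁W A₁ hA₁ τ hτ P hP
  have hrel₀ : ∀ P : (E⁄Qb).Point, p • P = 0 →
      (g * σ₀ * g⁻¹) • (g * σ₀ * g⁻¹) • P - W'.apOfModel ℓ₀ • (g * σ₀ * g⁻¹) • P
        + (ℓ₀ : ℤ) • P = 0 :=
    fun P hP => rel_conj E (W'.apOfModel ℓ₀) (ℓ₀ : ℤ) σ₀ g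
      (fun Q hQ => frobRel_of_model E hW' hp hℓ₀ hℓ₀p hgood₀ A₀ hA₀ σ₀ hσ₀ Q hQ) P hP
  have hsame : ∀ P : (E⁄Qb).Point, p • P = 0 → τ • P = (g * σ₀ * g⁻¹) • P := by
    intro P hP
    have h1 := LinearMap.congr_fun hg2 ⟨P, hmem P hP⟩
    rw [galoisRepModuleEnd_apply, galoisRepModuleEnd_apply] at h1
    exact congrArg Subtype.val h1
  have hτp : ∀ P : (E⁄Qb).Point, p • P = 0 → p • (τ • P) = 0 :=
    fun P hP => nsmul_gsmul_eq_zero E τ hP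
  have hkill : ∀ Q : (E⁄Qb).Point, p • Q = 0 →
      (W.apOfModel ℓ₁ - W'.apOfModel ℓ₀) • Q = 0 := by
    intro Q hQ
    -- `Q = τ • P`
    set P := τ⁻¹ • Q with hPdef
    have hP : p • P = 0 := nsmul_gsmul_eq_zero E τ⁻¹ hQ
    have hτP : τ • P = Q := gsmul_inv_smul E τ Q
    have r1 := hrel₁ P hP
    have r0 := hrel₀ P hP
    rw [← hsame P hP, ← hsame (τ • P) (hτp P hP)] at r0
    have hl : ((ℓ₁ : ℤ) - (ℓ₀ : ℤ)) • P = 0 := by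
      obtain ⟨m, hm⟩ := hpℓ
      rw [hm, mul_comm, mul_smul, natCast_zsmul, hP]
      exact zsmul_zero m
    have : (W.apOfModel ℓ₁ - W'.apOfModel ℓ₀) • (τ • P) =
        (τ • τ • P - W'.apOfModel ℓ₀ • τ • P + (ℓ₀ : ℤ) • P)
          - (τ • τ • P - W.apOfModel ℓ₁ • τ • P + (ℓ₁ : ℤ) • P)
          + ((ℓ₁ : ℤ) - (ℓ₀ : ℤ)) • P := by
      simp only [sub_smul]
      abel
    rw [← hτP, this, r0, r1, hl]
    simp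
  have hdvd : (p : ℤ) ∣ W.apOfModel ℓ₁ - W'.apOfModel ℓ₀ := by
    obtain ⟨Q, hQ⟩ := Fermat.Agent.GE.Tors.exists_addOrderOf_eq_prime_pow hΔQb hp 1
    rw [pow_one] at hQ
    have hQp : p • Q = 0 := by rw [← hQ]; exact addOrderOf_nsmul_eq_zero Q
    have := hkill Q hQp
    rw [← hQ]
    exact addOrderOf_dvd_iff_zsmul_eq_zero.mpr this
  -- conclusion
  refine ⟨a₀, ha₀, ?_⟩
  have h1 : (Ideal.Quotient.mk 𝔪) a₀ = (Ideal.Quotient.mk 𝔪) a₁ := hφa.symm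
  have h2 : (Ideal.Quotient.mk 𝔪) a₁ =
      (Ideal.Quotient.mk 𝔪) ((W.apOfModel ℓ₁ : ℤ) : integralClosure ℤ ℂ) := by
    rw [ha₁eq]
    exact Ideal.Quotient.eq.mpr hmem₁
  have h3 : (Ideal.Quotient.mk 𝔪) ((W.apOfModel ℓ₁ : ℤ) : integralClosure ℤ ℂ) =
      (Ideal.Quotient.mk 𝔪) ((W'.apOfModel ℓ₀ : ℤ) : integralClosure ℤ ℂ) := by
    rw [Ideal.Quotient.eq]
    obtain ⟨m, hm⟩ := hdvd
    have : ((W.apOfModel ℓ₁ : ℤ) : integralClosure ℤ ℂ) - ((W'.apOfModel ℓ₀ : ℤ) : integralClosure ℤ ℂ)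
        = (p : integralClosure ℤ ℂ) * (m : integralClosure ℤ ℂ) := by
      rw [← Int.cast_sub, hm]
      push_cast
      ring
    rw [this]
    exact 𝔪.mul_mem_right _ hpm
  exact Ideal.Quotient.eq.mp (h1.trans (h2.trans h3))


/-- `[E.IsElliptic]` form. -/
theorem congr_extend' (E : WeierstrassCurve ℚ) [E.IsElliptic] (W W' : WeierstrassCurve ℤ)
    (hW : W.IsIntegralModelOf E) (hW' : W'.IsIntegralModelOf E) {p N : ℕ} (hp : p.Prime)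
    (B₀ : Finset ℕ) (f : CuspForm (CongruenceSubgroup.Gamma0 N) 2)
    (𝔪 : Ideal (integralClosure ℤ ℂ)) (hf : f.IsNormalizedEigenform) (hmax : 𝔪.IsMaximal)
    (hpm : (p : integralClosure ℤ ℂ) ∈ 𝔪)
    (hcong : ∀ ℓ : ℕ, ℓ.Prime → ℓ ∉ B₀ → W.IsGoodPrimeFor ℓ → ¬ ℓ ∣ N → ℓ ≠ p →
      ∃ a : integralClosure ℤ ℂ, (a : ℂ) = ModularFormClass.qCoeff f ℓ ∧
        a - ((W.apOfModel ℓ : ℤ) : integralClosure ℤ ℂ) ∈ 𝔪) :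
    ∀ ℓ : ℕ, ℓ.Prime → W'.IsGoodPrimeFor ℓ → ¬ ℓ ∣ N → ℓ ≠ p →
      ∃ a : integralClosure ℤ ℂ, (a : ℂ) = ModularFormClass.qCoeff f ℓ ∧
        a - ((W'.apOfModel ℓ : ℤ) : integralClosure ℤ ℂ) ∈ 𝔪 :=
  congr_extend E E.isUnit_Δ.ne_zero W W' hW hW' hp B₀ f 𝔪 hf hmax hpm hcong

/-- **Residual modularity from congruences outside a finite set** (`W` with `Δ ≠ 0`). -/
theorem isResiduallyModularOfLevel_of_cofinite (W : WeierstrassCurve ℤ) (hΔ : W.Δ ≠ 0)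
    {p N : ℕ} (hp : p.Prime) (B₀ : Finset ℕ) (f : CuspForm (CongruenceSubgroup.Gamma0 N) 2)
    (𝔪 : Ideal (integralClosure ℤ ℂ)) (hf : f.IsNormalizedEigenform) (hmax : 𝔪.IsMaximal)
    (hpm : (p : integralClosure ℤ ℂ) ∈ 𝔪)
    (hcong : ∀ ℓ : ℕ, ℓ.Prime → ℓ ∉ B₀ → W.IsGoodPrimeFor ℓ → ¬ ℓ ∣ N → ℓ ≠ p →
      ∃ a : integralClosure ℤ ℂ, (a : ℂ) = ModularFormClass.qCoeff f ℓ ∧
        a - ((W.apOfModel ℓ : ℤ) : integralClosure ℤ ℂ) ∈ 𝔪) :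
    W.IsResiduallyModularOfLevel p N := by
  have hEΔ : (W.map (Int.castRingHom ℚ)).Δ ≠ 0 := by
    rw [WeierstrassCurve.map_Δ]
    simpa using hΔ
  have hW : W.IsIntegralModelOf (W.map (Int.castRingHom ℚ)) := ⟨1, one_smul _ _⟩
  exact ⟨f, 𝔪, hf, hmax, hpm,
    congr_extend (W.map (Int.castRingHom ℚ)) hEΔ W W hW hW hp B₀ f 𝔪 hf hmax hpm hcong⟩

end Fermat.Agent.GB.Top.CongrExtend
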