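/-
GATE-B / TOP (helper79, shape asked by helper35 5618 for GB/A/A6/Killer.lean):
`congr_all_of_cofinite` — for `W/ℤ` with `Δ ≠ 0`, residual congruences `a_ℓ(f) ≡ a_ℓ(W) (mod 𝔪)` at the
good primes `ℓ ∤ N p` of `W` outside a finite set `B` hold at ALL good primes `ℓ ∤ N p`
(in particular at `ℓ = q`).  Special case `W' = W`, `E = W_ℚ` of `CongrExtend.congr_extend`.
-/
import Fermat.Agent.GB.Top.CongrExtend

set_option autoImplicit false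

namespace Fermat.Agent.GB.Top.CongrAll

open WeierstrassCurve

theorem congr_all_of_cofinite (W : WeierstrassCurve ℤ) (hΔ : W.Δ ≠ 0) (p N : ℕ) (hp : p.Prime)
    (f : CuspForm (CongruenceSubgroup.Gamma0 N) 2) (𝔪 : Ideal (integralClosure ℤ ℂ))
    (hf : f.IsNormalizedEigenform) (h𝔪 : 𝔪.IsMaximal) (hp𝔪 : (p : integralClosure ℤ ℂ) ∈ 𝔪)
    (B : Finset ℕ)
    (h : ∀ ℓ : ℕ, ℓ.Prime → ℓ ∉ B → W.IsGoodPrimeFor ℓ → ¬ ℓ ∣ N → ℓ ≠ p →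
      ∃ a : integralClosure ℤ ℂ, (a : ℂ) = ModularFormClass.qCoeff f ℓ ∧
        a - ((W.apOfModel ℓ : ℤ) : integralClosure ℤ ℂ) ∈ 𝔪) :
    ∀ ℓ : ℕ, ℓ.Prime → W.IsGoodPrimeFor ℓ → ¬ ℓ ∣ N → ℓ ≠ p →
      ∃ a : integralClosure ℤ ℂ, (a : ℂ) = ModularFormClass.qCoeff f ℓ ∧
        a - ((W.apOfModel ℓ : ℤ) : integralClosure ℤ ℂ) ∈ 𝔪 := by
  have hEΔ : (W.map (Int.castRingHom ℚ)).Δ ≠ 0 := by
    rw [WeierstrassCurve.map_Δ]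
    simpa using hΔ
  have hW : W.IsIntegralModelOf (W.map (Int.castRingHom ℚ)) := ⟨1, one_smul _ _⟩
  exact Fermat.Agent.GB.Top.CongrExtend.congr_extend (W.map (Int.castRingHom ℚ)) hEΔ W W hW hW hp
    B f 𝔪 hf h𝔪 hp𝔪 h

/-- ... hence `W` is residually modular of level `N`. -/
theorem isResiduallyModularOfLevel_of_cofinite (W : WeierstrassCurve ℤ) (hΔ : W.Δ ≠ 0) (p N : ℕ)
    (hp : p.Prime) (f : CuspForm (CongruenceSubgroup.Gamma0 N) 2)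
    (𝔪 : Ideal (integralClosure ℤ ℂ)) (hf : f.IsNormalizedEigenform) (h𝔪 : 𝔪.IsMaximal)
    (hp𝔪 : (p : integralClosure ℤ ℂ) ∈ 𝔪) (B : Finset ℕ)
    (h : ∀ ℓ : ℕ, ℓ.Prime → ℓ ∉ B → W.IsGoodPrimeFor ℓ → ¬ ℓ ∣ N → ℓ ≠ p →
      ∃ a : integralClosure ℤ ℂ, (a : ℂ) = ModularFormClass.qCoeff f ℓ ∧
        a - ((W.apOfModel ℓ : ℤ) : integralClosure ℤ ℂ) ∈ 𝔪) :
    W.IsResiduallyModularOfLevel p N :=
  ⟨f, 𝔪, hf, h𝔪, hp𝔪, congr_all_of_cofinite W hΔ p N hp f 𝔪 hf h𝔪 hp𝔪 B h⟩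

end Fermat.Agent.GB.Top.CongrAll
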