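/-
GATE-B / TOP, pinned interface after RULING R1 §3 (helper79): the Ribet core and CASE B with the
TRANSVECTION binder (Taylor–Wiles hypothesis), and the frozen statement S43 from them.

* `CoreT`  : `S43Frey.Core38` + `htrans : HasTransvectionModP (W.map _) p`
             (`∃ σ, ρ̄(σ) ≠ 1 ∧ (ρ̄(σ) - 1)² = 0`, `FreyTwo/Transvection.lean`), right after `hirr`;
* `CaseBT` : `S43Frey.CaseB38` + the same binder;  CASE A is unchanged (`S43Frey.CaseA38`);
* `coreT_of_cases : CaseA38 → CaseBT → CoreT`;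
* `frey_htrans` : the transvection for the Frey curve (inertia at `2`: `FreyTwo/NodePoint` +
  `FreyTwo/Transvection`), in the `freyCurveInt.map` spelling;
* `s43_of_coreT : CoreT → (frozen S43)`, `s43_of_cases : CaseA38 → CaseBT → (frozen S43)`
  — NO other binder (`ModelChange.modelChange` and `frey_htrans` are plugged);
* `caseA_frey : CaseA38 → GB.Top.CaseA`, `caseB_frey : CaseBT → GB.Top.CaseB` (helper53's
  Frey-package forms of `GB/Top/S43Top.lean`).
-/
import Fermat.Agent.GB.Top.ModelChange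
import Fermat.Agent.GB.Top.FreyTwo.Transvection
import Fermat.Agent.GB.Top.FreyTwo.NodePoint

set_option autoImplicit false

open WeierstrassCurve WeierstrassCurve.Affine WeierstrassCurve.Affine.Point
open scoped WeierstrassCurve.Affine

namespace Fermat.Agent.GB.Top.Pinned

open Fermat.Agent.GB.Top.S43Frey Fermat.Agent.GB.Top.ModelChangeProof
open Fermat.Agent.GB.Top.FreyTwo.Transvection

/-- **The Ribet core with the transvection binder** (RULING R1 §3): the frozen statement S38 with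
`5 ≤ p`, `q ≠ 2` and `htrans`. -/
def CoreT : Prop :=
  ∀ (p : ℕ) [Fact p.Prime] (_ : 5 ≤ p) (W : WeierstrassCurve ℤ) (_ : W.Δ ≠ 0)
    (_ : W.IsSemistableModel)
    (hcard₁ : Nat.card (Submodule.torsionBy ℤ
      ((W.map (Int.castRingHom ℚ))⁄(AlgebraicClosure ℚ)).Point p) = p ^ 2)
    (hker : GaloisFactorsThroughFiniteLevel
      (WeierstrassCurve.Affine.Point.galoisRepModuleEnd (K := AlgebraicClosure ℚ) ℚ
        (W.map (Int.castRingHom ℚ)) p))
    (_ : W.ModRepIsIrreducible p) (_ : HasTransvectionModP (W.map (Int.castRingHom ℚ)) p)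
    (M q : ℕ) (_ : q.Prime) (_ : q ≠ 2) (_ : q ≠ p)
    (_ : q ∣ M) (_ : Squarefree M)
    (_ : ((W.map (Int.castRingHom ℚ)).residualGaloisRepOf p hcard₁ hker).IsUnramifiedAt q)
    (_ : W.IsResiduallyModularOfLevel p M),
    W.IsResiduallyModularOfLevel p (M / q)

/-- **CASE B with the transvection binder** (Ihara avoidance). -/
def CaseBT : Prop :=
  ∀ (p : ℕ) [Fact p.Prime] (_ : 5 ≤ p) (W : WeierstrassCurve ℤ) (_ : W.Δ ≠ 0)
    (_ : W.IsSemistableModel)
    (hcard₁ : Nat.card (Submodule.torsionBy ℤ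
      ((W.map (Int.castRingHom ℚ))⁄(AlgebraicClosure ℚ)).Point p) = p ^ 2)
    (hker : GaloisFactorsThroughFiniteLevel
      (WeierstrassCurve.Affine.Point.galoisRepModuleEnd (K := AlgebraicClosure ℚ) ℚ
        (W.map (Int.castRingHom ℚ)) p))
    (_ : W.ModRepIsIrreducible p) (_ : HasTransvectionModP (W.map (Int.castRingHom ℚ)) p)
    (M q : ℕ) (_ : q.Prime) (_ : q ≠ 2) (_ : q ≠ p)
    (_ : q ∣ M) (_ : Squarefree M)
    (_ : ((W.map (Int.castRingHom ℚ)).residualGaloisRepOf p hcard₁ hker).IsUnramifiedAt q)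
    (_ : W.IsResiduallyModularOfLevel p M)
    (_ : q % p = 1) (_ : ScalarFrob38 W p q),
    W.IsResiduallyModularOfLevel p (M / q)

/-- The core from the two cases. -/
theorem coreT_of_cases (hA : CaseA38) (hB : CaseBT) : CoreT := by
  intro p _ hp5 W hΔ hW hcard₁ hker hirr htrans M q hq hq2 hqp hqM hM hunr hres
  by_contra hnot
  obtain ⟨h1, h2⟩ := hA p hp5 W hΔ hW hcard₁ hker hirr M q hq hq2 hqp hqM hM hunr hres hnot
  exact hnot (hB p hp5 W hΔ hW hcard₁ hker hirr htrans M q hq hq2 hqp hqM hM hunr hres h1 h2)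

/-- `Core38` (no transvection binder) implies `CoreT`. -/
theorem coreT_of_core38 (h : Core38) : CoreT :=
  fun p _ hp5 W hΔ hW hcard₁ hker hirr _ M q hq hq2 hqp hqM hM hunr hres =>
    h p hp5 W hΔ hW hcard₁ hker hirr M q hq hq2 hqp hqM hM hunr hres

/-- **T1**: the mod-`p` representation of the Frey curve contains a transvection (inertia at `2`),
in the spelling of the semistable model. -/
theorem frey_htrans (P : FreyPackage) :
    HasTransvectionModP (P.freyCurveInt.map (Int.castRingHom ℚ)) P.p := by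
  obtain ⟨A, hA⟩ := Fermat.Agent.Common_helper32.exists_liesOverPrime 2 Nat.prime_two
  have h := frey_hasTransvectionModP P hA
    (Fermat.Agent.GB.Top.FreyTwo.NodePoint.frey_exists_torsion_x_mem_nonunits P A hA)
  rw [freyCurve_eq_map P] at h
  exact h

/-- **Frozen S43 from the Ribet core with the transvection binder** — no other hypothesis. -/
theorem s43_of_coreT (hcore : CoreT) (P : FreyPackage) {N q : ℕ}
    (hcond : P.IsConductorLevel N) (hq : q.Prime) (hq2 : q ≠ 2) (hqp : q ≠ P.p) (hqN : q ∣ N)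
    (hirr : GaloisRepIsIrreducible (K := AlgebraicClosure ℚ) ℚ P.freyCurve P.p)
    (hmod : P.ModularRepOfLevel N) (hunr : P.GaloisRepUnramifiedAt q) :
    ∃ M : ℕ, M ∣ N ∧ ¬ q ∣ M ∧ P.ModularRepOfLevel M := by
  have : Fact P.p.Prime := ⟨P.pp⟩
  have hp1 : 1 ≤ P.p := P.pp.one_lt.le
  have hΔ := freyCurveInt_Δ_ne_zero P
  have hcard₁ := hcard_of_Δ_ne_zero P.freyCurveInt hΔ P.p hp1
  have hker := hker_of_Δ_ne_zero P.freyCurveInt hΔ P.p hp1
  have hres' := hcore P.p P.hp5 P.freyCurveInt hΔ (freyCurveInt_isSemistableModel P) hcard₁ hker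
    (frey_irr P hirr) (frey_htrans P) N q hq hq2 hqp hqN hcond.squarefree
    (frey_unr P hcard₁ hker hunr) (frey_res_of_mod modelChange P hmod)
  refine ⟨N / q, Nat.div_dvd_of_dvd hqN, ?_, frey_mod_of_res P hres'⟩
  intro hdvd
  obtain ⟨k, hk⟩ := hqN
  have hk' : N / q = k := by rw [hk, Nat.mul_div_cancel_left _ hq.pos]
  rw [hk'] at hdvd
  obtain ⟨j, hj⟩ := hdvd
  have hsq : q * q ∣ N := ⟨j, by rw [hk, hj]; ring⟩
  exact hq.one_lt.ne' (Nat.isUnit_iff.mp (hcond.squarefree q hsq))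

/-- **Frozen S43 from CASE A and CASE B (with transvection)** in the S38 shape. -/
theorem s43_of_cases (hA : CaseA38) (hB : CaseBT) (P : FreyPackage) {N q : ℕ}
    (hcond : P.IsConductorLevel N) (hq : q.Prime) (hq2 : q ≠ 2) (hqp : q ≠ P.p) (hqN : q ∣ N)
    (hirr : GaloisRepIsIrreducible (K := AlgebraicClosure ℚ) ℚ P.freyCurve P.p)
    (hmod : P.ModularRepOfLevel N) (hunr : P.GaloisRepUnramifiedAt q) :
    ∃ M : ℕ, M ∣ N ∧ ¬ q ∣ M ∧ P.ModularRepOfLevel M :=
  s43_of_coreT (coreT_of_cases hA hB) P hcond hq hq2 hqp hqN hirr hmod hunr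

/-- CASE A in Frey-package form (`GB/Top/S43Top.CaseA`). -/
theorem caseA_frey (hA : CaseA38) : Fermat.Agent.GB.Top.CaseA :=
  caseA_of_caseA38 hA modelChange

/-- CASE B in Frey-package form (`GB/Top/S43Top.CaseB`) from CASE B with transvection. -/
theorem caseB_frey (hB : CaseBT) : Fermat.Agent.GB.Top.CaseB := by
  intro P N' q hcond hq hq2 hqp hirr hmod hunr h1 hs
  have : Fact P.p.Prime := ⟨P.pp⟩
  have hp1 : 1 ≤ P.p := P.pp.one_lt.le
  have hΔ := freyCurveInt_Δ_ne_zero P
  have hcard₁ := hcard_of_Δ_ne_zero P.freyCurveInt hΔ P.p hp1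
  have hker := hker_of_Δ_ne_zero P.freyCurveInt hΔ P.p hp1
  have hres' := hB P.p P.hp5 P.freyCurveInt hΔ (freyCurveInt_isSemistableModel P) hcard₁ hker
    (frey_irr P hirr) (frey_htrans P) (N' * q) q hq hq2 hqp (dvd_mul_left q N') hcond.squarefree
    (frey_unr P hcard₁ hker hunr) (frey_res_of_mod modelChange P hmod) h1
    (scalarFrob38_of_frobScalarAt P hs)
  rw [Nat.mul_div_cancel _ hq.pos] at hres'
  exact frey_mod_of_res P hres'

end Fermat.Agent.GB.Top.Pinned
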