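/-
GATE-B / TOP, minimal-level restructure (RULING R4 §1 of the gate lead, board 5608) (helper2).

`s43_of_min` : the frozen statement S43 from

* `CaseA`    (Mazur's principle at `ℓ ≠ p`, `GB/Top/S43Top.lean`),
* `CaseBmin` (Ihara avoidance at a MINIMAL level: every odd prime `ℓ ≠ p` of the level is
              `≡ 1 (mod p)` with scalar Frobenius, and no proper divisor of the level is a level of
              the representation),
* `hS05`     (the Frey representation is unramified at every odd prime `ℓ ≠ p`; this is the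
              statement S05, on main),

by passing to a minimal level `N₀ ∣ N` of the representation: if `q ∤ N₀` we are done; otherwise
`CaseA` at every odd prime `ℓ ≠ p` of `N₀` (minimality: NOT modular of level `N₀ / ℓ`) shows that
all of them are `≡ 1 (p)` with scalar Frobenius, and `CaseBmin` at `q` contradicts minimality.
-/
import Fermat.Agent.GB.Top.S43Top

set_option autoImplicit false
open WeierstrassCurve WeierstrassCurve.Affine WeierstrassCurve.Affine.Point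
open FreyPackage

namespace Fermat.Agent.GB.Top

/-- `ℚ̄`. -/
local notation "Qb" => AlgebraicClosure ℚ

/-- **CASE B at a minimal level** (Ihara avoidance, several framed primes), Frey-package form:
`hSig` every odd prime `ℓ ≠ p` of the level is `≡ 1 (mod p)` with scalar Frobenius;
`hmin` no proper divisor of the level is a level of the representation. -/
def CaseBmin : Prop :=
  ∀ (P : FreyPackage) {N' q : ℕ}, P.IsConductorLevel (N' * q) → q.Prime → q ≠ 2 → q ≠ P.p →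
    GaloisRepIsIrreducible (K := Qb) ℚ P.freyCurve P.p →
    P.ModularRepOfLevel (N' * q) → P.GaloisRepUnramifiedAt q →
    q % P.p = 1 → FrobScalarAt P q →
    (∀ ℓ : ℕ, ℓ.Prime → ℓ ∣ N' * q → ℓ ≠ 2 → ℓ ≠ P.p → ℓ % P.p = 1 ∧ FrobScalarAt P ℓ) →
    (∀ m : ℕ, m ∣ N' * q → m ≠ N' * q → ¬ P.ModularRepOfLevel m) →
    P.ModularRepOfLevel N'

/-- `CaseB` implies `CaseBmin` (the extra hypotheses are dropped). -/
theorem caseBmin_of_caseB (hB : CaseB) : CaseBmin :=
  fun P _ _ hcond hq hq2 hqp hirr hmod hunr h1 hs _ _ => hB P hcond hq hq2 hqp hirr hmod hunr h1 hs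

/-- **S43 from CASE A and CASE B at a minimal level.** -/
theorem s43_of_min (hA : CaseA) (hB : CaseBmin)
    (hS05 : ∀ (P : FreyPackage) {ℓ : ℕ}, ℓ.Prime → ℓ ≠ 2 → ℓ ≠ P.p → P.GaloisRepUnramifiedAt ℓ)
    (P : FreyPackage) {N q : ℕ} (hcond : P.IsConductorLevel N) (hq : q.Prime) (hq2 : q ≠ 2)
    (hqp : q ≠ P.p) (_hqN : q ∣ N)
    (hirr : GaloisRepIsIrreducible (K := Qb) ℚ P.freyCurve P.p)
    (hmod : P.ModularRepOfLevel N) (hunr : P.GaloisRepUnramifiedAt q) :
    ∃ M : ℕ, M ∣ N ∧ ¬ q ∣ M ∧ P.ModularRepOfLevel M := by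
  classical
  -- a minimal level `N₀ ∣ N`
  have hex : ∃ n, n ∣ N ∧ P.ModularRepOfLevel n := ⟨N, dvd_rfl, hmod⟩
  obtain ⟨N₀, ⟨hN₀N, hN₀mod⟩, hmin⟩ : ∃ N₀, (N₀ ∣ N ∧ P.ModularRepOfLevel N₀) ∧
      ∀ m, m ∣ N → P.ModularRepOfLevel m → N₀ ≤ m :=
    ⟨Nat.find hex, Nat.find_spec hex, fun m h1 h2 => Nat.find_min' hex ⟨h1, h2⟩⟩
  have hN₀pos : 0 < N₀ := Nat.pos_of_dvd_of_pos hN₀N hcond.pos
  have hcond₀ : P.IsConductorLevel N₀ := hcond.of_dvd hN₀N hN₀pos
  -- no proper divisor of `N₀` is a level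
  have hmin' : ∀ m : ℕ, m ∣ N₀ → m ≠ N₀ → ¬ P.ModularRepOfLevel m := by
    intro m hm hne hmodm
    have h1 : N₀ ≤ m := hmin m (hm.trans hN₀N) hmodm
    exact hne (le_antisymm (Nat.le_of_dvd hN₀pos hm) h1)
  by_cases hq0 : q ∣ N₀
  · exfalso
    -- every odd prime `ℓ ≠ p` of `N₀` is `≡ 1 (p)` with scalar Frobenius, by CASE A
    have hSig : ∀ ℓ : ℕ, ℓ.Prime → ℓ ∣ N₀ → ℓ ≠ 2 → ℓ ≠ P.p →
        ℓ % P.p = 1 ∧ FrobScalarAt P ℓ := by
      intro ℓ hℓ hℓN₀ hℓ2 hℓp
      obtain ⟨N', hN'⟩ := hℓN₀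
      have e : N₀ = N' * ℓ := by rw [hN', mul_comm]
      have hc : P.IsConductorLevel (N' * ℓ) := e ▸ hcond₀
      have hm : P.ModularRepOfLevel (N' * ℓ) := e ▸ hN₀mod
      refine hA P hc hℓ hℓ2 hℓp hirr hm (hS05 P hℓ hℓ2 hℓp) ?_
      refine hmin' N' ⟨ℓ, e⟩ ?_
      intro h
      have h2 : N' * 1 = N' * ℓ := by rw [mul_one, ← e, h]
      have hN'pos : 0 < N' := by
        rcases Nat.eq_zero_or_pos N' with h0 | h0
        · rw [h0, zero_mul] at e; omega
        · exact h0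
      exact hℓ.one_lt.ne (Nat.eq_of_mul_eq_mul_left hN'pos h2)
    obtain ⟨N', hN'⟩ := hq0
    have e : N₀ = N' * q := by rw [hN', mul_comm]
    have hc : P.IsConductorLevel (N' * q) := e ▸ hcond₀
    have hm : P.ModularRepOfLevel (N' * q) := e ▸ hN₀mod
    obtain ⟨h1, hs⟩ := hSig q hq ⟨N', hN'⟩ hq2 hqp
    have hlow : P.ModularRepOfLevel N' :=
      hB P hc hq hq2 hqp hirr hm hunr h1 hs (fun ℓ hℓ hd => hSig ℓ hℓ (e ▸ hd))
        (fun m hd hne => hmin' m (e ▸ hd) (e ▸ hne))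
    refine hmin' N' ⟨q, e⟩ ?_ hlow
    intro h
    have h2 : N' * 1 = N' * q := by rw [mul_one, ← e, h]
    have hN'pos : 0 < N' := by
      rcases Nat.eq_zero_or_pos N' with h0 | h0
      · rw [h0, zero_mul] at e; omega
      · exact h0
    exact hq.one_lt.ne (Nat.eq_of_mul_eq_mul_left hN'pos h2)
  · exact ⟨N₀, hN₀N, hq0, hN₀mod⟩

end Fermat.Agent.GB.Top
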