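/-
GATE-B / TOP, RULING R4 §1 (helper79): CASE B at a MINIMAL level, S38 shape, and its Frey bridge.

* `CaseB38min` : `Pinned.CaseBT` (CASE B with the transvection binder) + ONE more binder
    `hSg : ∀ ℓ, ℓ.Prime → ℓ ∣ M → ℓ ≠ p → ¬ (ρ̄ unramified at ℓ) ∨ (ℓ % p = 1 ∧ ScalarFrob38 W p ℓ)`
  (every prime `ℓ ≠ p` of the level at which `ρ̄` is unramified is `≡ 1 (mod p)` with scalar
  Frobenius — the situation produced by CASE A at a minimal level), same conclusion as `CaseBT`;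
* `CaseB38minF` : the same with `¬ modular at M / q` as a binder and conclusion `False`;
  `caseB38min_iff_false : CaseB38min ↔ CaseB38minF`;
* `caseB38min_of_caseBT : CaseBT → CaseB38min`;
* `frey_ramified_two` : the mod-`p` representation of the Frey curve is RAMIFIED at `2`
  (`FreyTwo/FixedX.exists_moved_tors` + `FreyTwo/NodePoint`), in the `freyCurveInt.map` spelling;
* `caseBmin_frey : CaseB38min → GB.Top.CaseBmin` (helper2's Frey-package form of
  `GB/Top/S43Min.lean`);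
* `s43_of_min : CaseA38 → CaseB38min → (S05 binder) → (frozen S43)`.
-/
import Fermat.Agent.GB.Top.Pinned
import Fermat.Agent.GB.Top.S43Min
import Fermat.Agent.GB.Top.FreyTwo.FixedX
import Fermat.Agent.GB.Top.FreyTwo.NodePoint

set_option autoImplicit false

open WeierstrassCurve WeierstrassCurve.Affine WeierstrassCurve.Affine.Point
open scoped WeierstrassCurve.Affine

namespace Fermat.Agent.GB.Top.PinnedMin

open Fermat.Agent.GB.Top.S43Frey Fermat.Agent.GB.Top.ModelChangeProof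
open Fermat.Agent.GB.Top.Pinned
open Fermat.Agent.GB.Top.FreyTwo.Transvection

/-- **CASE B at a minimal level** (Ihara avoidance with several framed primes), S38 shape:
`Pinned.CaseBT` + `hSg` (every prime `ℓ ≠ p` of the level is either ramified for `ρ̄`, or
`≡ 1 (mod p)` with scalar Frobenius). -/
def CaseB38min : Prop :=
  ∀ (p : ℕ) [Fact p.Prime] (_ : 5 ≤ p) (W : WeierstrassCurve ℤ) (_ : W.Δ ≠ 0)
    (_ : W.IsSemistableModel)
    (hcard₁ : Nat.card (Submodule.torsionBy ℤ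
      ((W.map (Int.castRingHom ℚ))⁄(AlgebraicClosure ℚ)).Point p) = p ^ 2)
    (hker : GaloisFactorsThroughFiniteLevel
      (WeierstrassCurve.Affine.Point.galoisRepModuleEnd (K := AlgebraicClosure ℚ) ℚ
        (W.map (Int.castRingHom ℚ)) p))
    (_ : W.ModRepIsIrreducible p) (_ : HasTransvectionModP (W.map (Int.castRingHom ℚ)) p)
    (M q : ℕ) (_ : q.Prime) (_ : q ≠ 2) (_ : q ≠ p)
    (_ : q ∣ M) (_ : Squarefree M)
    (_ : ((W.map (Int.castRingHom ℚ)).residualGaloisRepOf p hcard₁ hker).IsUnramifiedAt q)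
    (_ : W.IsResiduallyModularOfLevel p M)
    (_ : q % p = 1) (_ : ScalarFrob38 W p q)
    (_ : ∀ ℓ : ℕ, ℓ.Prime → ℓ ∣ M → ℓ ≠ p →
      ¬ ((W.map (Int.castRingHom ℚ)).residualGaloisRepOf p hcard₁ hker).IsUnramifiedAt ℓ ∨
        (ℓ % p = 1 ∧ ScalarFrob38 W p ℓ)),
    W.IsResiduallyModularOfLevel p (M / q)

/-- `CaseB38min` in contradiction form: `¬ modular at M / q` is a binder, the conclusion is
`False`. -/
def CaseB38minF : Prop :=
  ∀ (p : ℕ) [Fact p.Prime] (_ : 5 ≤ p) (W : WeierstrassCurve ℤ) (_ : W.Δ ≠ 0)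
    (_ : W.IsSemistableModel)
    (hcard₁ : Nat.card (Submodule.torsionBy ℤ
      ((W.map (Int.castRingHom ℚ))⁄(AlgebraicClosure ℚ)).Point p) = p ^ 2)
    (hker : GaloisFactorsThroughFiniteLevel
      (WeierstrassCurve.Affine.Point.galoisRepModuleEnd (K := AlgebraicClosure ℚ) ℚ
        (W.map (Int.castRingHom ℚ)) p))
    (_ : W.ModRepIsIrreducible p) (_ : HasTransvectionModP (W.map (Int.castRingHom ℚ)) p)
    (M q : ℕ) (_ : q.Prime) (_ : q ≠ 2) (_ : q ≠ p)
    (_ : q ∣ M) (_ : Squarefree M)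
    (_ : ((W.map (Int.castRingHom ℚ)).residualGaloisRepOf p hcard₁ hker).IsUnramifiedAt q)
    (_ : W.IsResiduallyModularOfLevel p M)
    (_ : ¬ W.IsResiduallyModularOfLevel p (M / q))
    (_ : q % p = 1) (_ : ScalarFrob38 W p q)
    (_ : ∀ ℓ : ℕ, ℓ.Prime → ℓ ∣ M → ℓ ≠ p →
      ¬ ((W.map (Int.castRingHom ℚ)).residualGaloisRepOf p hcard₁ hker).IsUnramifiedAt ℓ ∨
        (ℓ % p = 1 ∧ ScalarFrob38 W p ℓ)),
    False

theorem caseB38min_iff_false : CaseB38min ↔ CaseB38minF := by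
  constructor
  · intro h p _ hp5 W hΔ hW hcard₁ hker hirr htrans M q hq hq2 hqp hqM hM hunr hres hnot h1 hs hSg
    exact hnot (h p hp5 W hΔ hW hcard₁ hker hirr htrans M q hq hq2 hqp hqM hM hunr hres h1 hs hSg)
  · intro h p _ hp5 W hΔ hW hcard₁ hker hirr htrans M q hq hq2 hqp hqM hM hunr hres h1 hs hSg
    by_contra hnot
    exact h p hp5 W hΔ hW hcard₁ hker hirr htrans M q hq hq2 hqp hqM hM hunr hres hnot h1 hs hSg

/-- `CaseBT` implies `CaseB38min` (the extra binder is dropped). -/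
theorem caseB38min_of_caseBT (hB : CaseBT) : CaseB38min :=
  fun p _ hp5 W hΔ hW hcard₁ hker hirr htrans M q hq hq2 hqp hqM hM hunr hres h1 hs _ =>
    hB p hp5 W hΔ hW hcard₁ hker hirr htrans M q hq hq2 hqp hqM hM hunr hres h1 hs

/-- a torsion point moved by an element of the inertia group at `ℓ` contradicts unramifiedness
at `ℓ`. -/
theorem not_isUnramifiedAt_of_moved (E : WeierstrassCurve ℚ) (p : ℕ) [Fact p.Prime]
    (hcard₁ : Nat.card (Submodule.torsionBy ℤ (E⁄(AlgebraicClosure ℚ)).Point p) = p ^ 2)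
    (hker : GaloisFactorsThroughFiniteLevel
      (WeierstrassCurve.Affine.Point.galoisRepModuleEnd (K := AlgebraicClosure ℚ) ℚ E p))
    {ℓ : ℕ} {A : ValuationSubring (AlgebraicClosure ℚ)} (hA : A.LiesOverPrime ℓ)
    (hmoved : ∃ σ ∈ A.inertiaSubgroupIn ℚ,
      ∃ t : Submodule.torsionBy ℤ (E⁄(AlgebraicClosure ℚ)).Point p, σ • t ≠ t) :
    ¬ (E.residualGaloisRepOf p hcard₁ hker).IsUnramifiedAt ℓ := by
  intro h
  obtain ⟨σ, hσ, t, ht⟩ := hmoved
  have h1 : WeierstrassCurve.Affine.Point.galoisRepModuleEnd (K := AlgebraicClosure ℚ) ℚ E p σ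
      = 1 := h A hA σ hσ
  apply ht
  have h2 := LinearMap.congr_fun h1 t
  rwa [WeierstrassCurve.Affine.Point.galoisRepModuleEnd_apply, Module.End.one_apply] at h2

/-- a torsion point of the Frey curve moved by inertia at `2`, in the spelling of the semistable
model. -/
theorem frey_moved_two (P : FreyPackage) :
    ∃ A : ValuationSubring (AlgebraicClosure ℚ), A.LiesOverPrime 2 ∧
      ∃ σ ∈ A.inertiaSubgroupIn ℚ, ∃ t : Submodule.torsionBy ℤ
        ((P.freyCurveInt.map (Int.castRingHom ℚ))⁄(AlgebraicClosure ℚ)).Point P.p, σ • t ≠ t := by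
  obtain ⟨A, hA⟩ := Fermat.Agent.Common_helper32.exists_liesOverPrime 2 Nat.prime_two
  have h := Fermat.Agent.GB.Top.FreyTwo.FixedX.exists_moved_tors hA
    (Fermat.Agent.GB.Top.FreyTwo.NodePoint.frey_exists_torsion_x_mem_nonunits P A hA)
  rw [freyCurve_eq_map P] at h
  exact ⟨A, hA, h⟩

/-- **The mod-`p` representation of the Frey curve is ramified at `2`.** -/
theorem frey_ramified_two (P : FreyPackage) [Fact P.p.Prime]
    (hcard₁ : Nat.card (Submodule.torsionBy ℤ
      ((P.freyCurveInt.map (Int.castRingHom ℚ))⁄(AlgebraicClosure ℚ)).Point P.p) = P.p ^ 2)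
    (hker : GaloisFactorsThroughFiniteLevel
      (WeierstrassCurve.Affine.Point.galoisRepModuleEnd (K := AlgebraicClosure ℚ) ℚ
        (P.freyCurveInt.map (Int.castRingHom ℚ)) P.p)) :
    ¬ ((P.freyCurveInt.map (Int.castRingHom ℚ)).residualGaloisRepOf P.p hcard₁
      hker).IsUnramifiedAt 2 := by
  obtain ⟨A, hA, hmoved⟩ := frey_moved_two P
  exact not_isUnramifiedAt_of_moved _ P.p hcard₁ hker hA hmoved

/-- **CASE B at a minimal level in Frey-package form** (`GB/Top/S43Min.CaseBmin`) from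
`CaseB38min`: `hres` by model change, `hSg` at `ℓ = 2` by `frey_ramified_two`, at odd `ℓ` from the
Frey-form `hSig`; the minimality binder `hmin` is not used. -/
theorem caseBmin_frey (hB : CaseB38min) : Fermat.Agent.GB.Top.CaseBmin := by
  intro P N' q hcond hq hq2 hqp hirr hmod hunr h1 hs hSig _
  have : Fact P.p.Prime := ⟨P.pp⟩
  have hp1 : 1 ≤ P.p := P.pp.one_lt.le
  have hΔ := freyCurveInt_Δ_ne_zero P
  have hcard₁ := hcard_of_Δ_ne_zero P.freyCurveInt hΔ P.p hp1
  have hker := hker_of_Δ_ne_zero P.freyCurveInt hΔ P.p hp1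
  have hres' := hB P.p P.hp5 P.freyCurveInt hΔ (freyCurveInt_isSemistableModel P) hcard₁ hker
    (frey_irr P hirr) (frey_htrans P) (N' * q) q hq hq2 hqp (dvd_mul_left q N') hcond.squarefree
    (frey_unr P hcard₁ hker hunr) (frey_res_of_mod modelChange P hmod) h1
    (scalarFrob38_of_frobScalarAt P hs) ?_
  · rw [Nat.mul_div_cancel _ hq.pos] at hres'
    exact frey_mod_of_res P hres'
  · intro ℓ hℓ hℓM hℓp
    by_cases hℓ2 : ℓ = 2
    · left
      rw [hℓ2]
      exact frey_ramified_two P hcard₁ hker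
    · right
      obtain ⟨h1', hs'⟩ := hSig ℓ hℓ hℓM hℓ2 hℓp
      exact ⟨h1', scalarFrob38_of_frobScalarAt P hs'⟩

/-- **Frozen S43 from CASE A (S38 shape), CASE B at a minimal level (S38 shape) and the S05
binder** (the Frey representation is unramified at every odd prime `ℓ ≠ p`). -/
theorem s43_of_min (hA : CaseA38) (hB : CaseB38min)
    (hS05 : ∀ (P : FreyPackage) {ℓ : ℕ}, ℓ.Prime → ℓ ≠ 2 → ℓ ≠ P.p → P.GaloisRepUnramifiedAt ℓ)
    (P : FreyPackage) {N q : ℕ}
    (hcond : P.IsConductorLevel N) (hq : q.Prime) (hq2 : q ≠ 2) (hqp : q ≠ P.p) (hqN : q ∣ N)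
    (hirr : GaloisRepIsIrreducible (K := AlgebraicClosure ℚ) ℚ P.freyCurve P.p)
    (hmod : P.ModularRepOfLevel N) (hunr : P.GaloisRepUnramifiedAt q) :
    ∃ M : ℕ, M ∣ N ∧ ¬ q ∣ M ∧ P.ModularRepOfLevel M :=
  Fermat.Agent.GB.Top.s43_of_min (caseA_frey hA) (caseBmin_frey hB) hS05 P hcond hq hq2 hqp hqN
    hirr hmod hunr

end Fermat.Agent.GB.Top.PinnedMin
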