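/-
GATE-B (Ribet level lowering, S38/S43) / TOP (helper32): **the split of CASE B at the residue
characteristic `p`** — `Pinned.CaseBT` from its two honest forms.

Why: when `p ∣ M` the strict-ordinary deformation condition `𝒟SO` (S56 shape) FAILS at the `p`-old
points of the Hecke algebra of level `M` (frozen `IsStrictOrdinaryAt` + `DetIsCyclotomic` force the
unramified quotient character `ψ` of `ρ|D_p` to satisfy `ψ² = 1`; at a `p`-old point `ψ(Frob_p)` is
the unit root of `X² − a_p X + p`), and the non-strict ordinary condition has the wrong numerology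
(tangent space `h⁰ + 2` when `ρ̄|D_p` is flat with `ψ̄² = 1`).  So CASE B can be run at a level `M`
with `p ∣ M` only when ALL points are `p`-new.  The split needs NO theorem (`by_cases`):

* `CaseBTFlat` : `p ∤ M` (flat deformation condition, S32);
* `p ∣ M` and residually modular of level `M / p` : `CaseBTFlat` at level `M / p` (squarefree,
  divisible by `q`, prime to `p`), then raise the level from `M / p / q` to `M / q` by old forms
  (`GE/Stab.exists_eigenform_of_dvd`);
* `CaseBTNew`  : `p ∣ M` and NOT residually modular of level `M / p` — every eigensystem in sight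
  is `p`-new, `U_p² = 1`, and the strict-ordinary condition is the right one.

`caseBT_of_split : CaseBTFlat → CaseBTNew → Pinned.CaseBT`, hence
`s43_of_split : CaseA38 → CaseBTFlat → CaseBTNew → (frozen S43)`.
-/
import Fermat.Agent.GB.Top.Pinned
import Fermat.Agent.GE.Stab

set_option autoImplicit false

open WeierstrassCurve WeierstrassCurve.Affine WeierstrassCurve.Affine.Point
open scoped WeierstrassCurve.Affine

namespace Fermat.Agent.GB.Top.SplitT

open Fermat.Agent.GB.Top.S43Frey Fermat.Agent.GB.Top.Pinned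
open Fermat.Agent.GB.Top.FreyTwo.Transvection

/-- **CASE B, flat form**: `Pinned.CaseBT` at a level `M` prime to `p`. -/
def CaseBTFlat : Prop :=
  ∀ (p : ℕ) [Fact p.Prime] (_ : 5 ≤ p) (W : WeierstrassCurve ℤ) (_ : W.Δ ≠ 0)
    (_ : W.IsSemistableModel)
    (hcard₁ : Nat.card (Submodule.torsionBy ℤ
      ((W.map (Int.castRingHom ℚ))⁄(AlgebraicClosure ℚ)).Point p) = p ^ 2)
    (hker : GaloisFactorsThroughFiniteLevel
      (WeierstrassCurve.Affine.Point.galoisRepModuleEnd (K := AlgebraicClosure ℚ) ℚ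
        (W.map (Int.castRingHom ℚ)) p))
    (_ : W.ModRepIsIrreducible p) (_ : HasTransvectionModP (W.map (Int.castRingHom ℚ)) p)
    (M q : ℕ) (_ : q.Prime) (_ : q ≠ 2) (_ : q ≠ p)
    (_ : q ∣ M) (_ : Squarefree M) (_ : ¬ p ∣ M)
    (_ : ((W.map (Int.castRingHom ℚ)).residualGaloisRepOf p hcard₁ hker).IsUnramifiedAt q)
    (_ : W.IsResiduallyModularOfLevel p M)
    (_ : q % p = 1) (_ : ScalarFrob38 W p q),
    W.IsResiduallyModularOfLevel p (M / q)

/-- **CASE B, `p`-new form**: `p ∣ M` and `W[p]` is NOT residually modular of level `M / p`. -/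
def CaseBTNew : Prop :=
  ∀ (p : ℕ) [Fact p.Prime] (_ : 5 ≤ p) (W : WeierstrassCurve ℤ) (_ : W.Δ ≠ 0)
    (_ : W.IsSemistableModel)
    (hcard₁ : Nat.card (Submodule.torsionBy ℤ
      ((W.map (Int.castRingHom ℚ))⁄(AlgebraicClosure ℚ)).Point p) = p ^ 2)
    (hker : GaloisFactorsThroughFiniteLevel
      (WeierstrassCurve.Affine.Point.galoisRepModuleEnd (K := AlgebraicClosure ℚ) ℚ
        (W.map (Int.castRingHom ℚ)) p))
    (_ : W.ModRepIsIrreducible p) (_ : HasTransvectionModP (W.map (Int.castRingHom ℚ)) p)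
    (M q : ℕ) (_ : q.Prime) (_ : q ≠ 2) (_ : q ≠ p)
    (_ : q ∣ M) (_ : Squarefree M) (_ : p ∣ M)
    (_ : ¬ W.IsResiduallyModularOfLevel p (M / p))
    (_ : ((W.map (Int.castRingHom ℚ)).residualGaloisRepOf p hcard₁ hker).IsUnramifiedAt q)
    (_ : W.IsResiduallyModularOfLevel p M)
    (_ : q % p = 1) (_ : ScalarFrob38 W p q),
    W.IsResiduallyModularOfLevel p (M / q)

/-- Nothing is lost: `CaseBT` gives both forms. -/
theorem caseBTFlat_of_caseBT (h : CaseBT) : CaseBTFlat :=
  fun p _ hp5 W hΔ hW hcard₁ hker hirr htr M q hq hq2 hqp hqM hM _ hunr hres h1 hs =>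
    h p hp5 W hΔ hW hcard₁ hker hirr htr M q hq hq2 hqp hqM hM hunr hres h1 hs

theorem caseBTNew_of_caseBT (h : CaseBT) : CaseBTNew :=
  fun p _ hp5 W hΔ hW hcard₁ hker hirr htr M q hq hq2 hqp hqM hM _ _ hunr hres h1 hs =>
    h p hp5 W hΔ hW hcard₁ hker hirr htr M q hq hq2 hqp hqM hM hunr hres h1 hs

/-- **Raising the level by old forms**: residual modularity passes to every nonzero multiple of
the level. -/
theorem isResiduallyModularOfLevel_of_dvd {W : WeierstrassCurve ℤ} {p M₀ M₁ : ℕ}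
    (h : W.IsResiduallyModularOfLevel p M₀) (hd : M₀ ∣ M₁) (h1 : M₁ ≠ 0) :
    W.IsResiduallyModularOfLevel p M₁ := by
  obtain ⟨f, 𝔪, hf, h𝔪, hp𝔪, hcong⟩ := h
  obtain ⟨g, hg, hgf⟩ := Fermat.Agent.GE.Stab.exists_eigenform_of_dvd hd h1 hf
  refine ⟨g, 𝔪, hg, h𝔪, hp𝔪, fun ℓ hℓ hgood hℓM hℓp => ?_⟩
  have hℓM₀ : ¬ ℓ ∣ M₀ := fun h0 => hℓM (h0.trans hd)
  have hℓd : ¬ ℓ ∣ M₁ / M₀ := fun h0 => hℓM (h0.trans (Nat.div_dvd_of_dvd hd))
  obtain ⟨a, ha, hmem⟩ := hcong ℓ hℓ hgood hℓM₀ hℓp
  exact ⟨a, by rw [ha, hgf ℓ hℓ hℓd], hmem⟩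

/-- **CASE B from its two honest forms.** -/
theorem caseBT_of_split (hflat : CaseBTFlat) (hnew : CaseBTNew) : CaseBT := by
  intro p _ hp5 W hΔ hW hcard₁ hker hirr htr M q hq hq2 hqp hqM hM hunr hres h1 hs
  have hp : p.Prime := Fact.out
  by_cases hpM : p ∣ M
  · by_cases hX : W.IsResiduallyModularOfLevel p (M / p)
    · -- the flat case at level `M / p`, then old forms
      have hM0 : M ≠ 0 := hM.ne_zero
      have hdvd : M / p ∣ M := Nat.div_dvd_of_dvd hpM
      have hsq1 : Squarefree (M / p) := hM.squarefree_of_dvd hdvd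
      have hq1 : q ∣ M / p := by
        obtain ⟨k, hk⟩ := hpM
        have hqk : q ∣ k := by
          have : q ∣ p * k := hk ▸ hqM
          rcases (Nat.Prime.dvd_mul hq).mp this with h | h
          · exact absurd ((Nat.prime_dvd_prime_iff_eq hq hp).mp h) hqp
          · exact h
        rw [hk, Nat.mul_div_cancel_left k hp.pos]
        exact hqk
      have hp1 : ¬ p ∣ M / p := by
        intro h
        obtain ⟨k, hk⟩ := h
        have h2 : M = p * (M / p) := (Nat.mul_div_cancel' hpM).symm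
        have h3 : p * p ∣ M := ⟨k, by rw [h2, hk]; ring⟩
        exact hp.not_isUnit (hM p h3)
      have h5 := hflat p hp5 W hΔ hW hcard₁ hker hirr htr (M / p) q hq hq2 hqp hq1 hsq1 hp1
        hunr hX h1 hs
      have hdd : M / p / q ∣ M / q := by
        rw [Nat.div_div_eq_div_mul, mul_comm p q, ← Nat.div_div_eq_div_mul]
        exact Nat.div_dvd_of_dvd (by
          obtain ⟨k, hk⟩ := hqM
          rw [hk, Nat.mul_div_cancel_left k hq.pos]
          have : p ∣ q * k := hk ▸ hpM
          rcases (Nat.Prime.dvd_mul hp).mp this with h | h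
          · exact absurd ((Nat.prime_dvd_prime_iff_eq hp hq).mp h).symm hqp
          · exact h)
      have hne : M / q ≠ 0 := by
        intro h0
        have := Nat.div_mul_cancel hqM
        rw [h0, zero_mul] at this
        exact hM0 this.symm
      exact isResiduallyModularOfLevel_of_dvd h5 hdd hne
    · exact hnew p hp5 W hΔ hW hcard₁ hker hirr htr M q hq hq2 hqp hqM hM hpM hX hunr hres h1 hs
  · exact hflat p hp5 W hΔ hW hcard₁ hker hirr htr M q hq hq2 hqp hqM hM hpM hunr hres h1 hs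

/-- **The frozen S43 from CASE A and the two honest forms of CASE B.** -/
theorem s43_of_split (hA : CaseA38) (hflat : CaseBTFlat) (hnew : CaseBTNew) (P : FreyPackage)
    {N q : ℕ} (hcond : P.IsConductorLevel N) (hq : q.Prime) (hq2 : q ≠ 2) (hqp : q ≠ P.p)
    (hqN : q ∣ N)
    (hirr : GaloisRepIsIrreducible (K := AlgebraicClosure ℚ) ℚ P.freyCurve P.p)
    (hmod : P.ModularRepOfLevel N) (hunr : P.GaloisRepUnramifiedAt q) :
    ∃ M : ℕ, M ∣ N ∧ ¬ q ∣ M ∧ P.ModularRepOfLevel M :=
  Pinned.s43_of_cases hA (caseBT_of_split hflat hnew) P hcond hq hq2 hqp hqN hirr hmod hunr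

end Fermat.Agent.GB.Top.SplitT
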