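/-
GATE-B (Ribet level lowering, S38/S43) / TOP (helper53, gate lead): **the split of CASE B at the
residue characteristic `p`, at a MINIMAL level** — `PinnedMin.CaseB38min` (RULING R4 §1, helper79)
from its two honest forms; the twin of helper32's `GB/Top/SplitT.lean` with the extra binder `hSg`
(every prime `ℓ ≠ p` of the level is ramified for `ρ̄`, or `≡ 1 (mod p)` with scalar Frobenius).

* `CaseB38minFlat` : `CaseB38min` at a level `M` prime to `p` (flat deformation condition, S32);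
* `CaseB38minNew`  : `CaseB38min` with `p ∣ M` and NOT residually modular of level `M / p`
  (every eigensystem in sight is `p`-new; strict-ordinary condition, S33 + B10′);
* the middle case (`p ∣ M`, residually modular of level `M / p`) is PROVED: `CaseB38minFlat` at the
  level `M / p` (the binder `hSg` restricts to the divisors of `M / p`), then old forms
  (`SplitT.isResiduallyModularOfLevel_of_dvd`).

`caseB38min_of_split : CaseB38minFlat → CaseB38minNew → PinnedMin.CaseB38min`, hence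
`s43_of_split_min : CaseA38 → CaseB38minFlat → CaseB38minNew → (S05 binder) → (frozen S43)`.
The contradiction forms `CaseB38minFlatF`, `CaseB38minNewF` (binder `¬ modular at M / q`,
conclusion `False`) are what the patching engine (`GB/B9/Final.TWSystem.elim`) produces.
-/
import Fermat.Agent.GB.Top.PinnedMin
import Fermat.Agent.GB.Top.SplitT

set_option autoImplicit false

open WeierstrassCurve WeierstrassCurve.Affine WeierstrassCurve.Affine.Point
open scoped WeierstrassCurve.Affine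

namespace Fermat.Agent.GB.Top.SplitMin

open Fermat.Agent.GB.Top.S43Frey Fermat.Agent.GB.Top.Pinned Fermat.Agent.GB.Top.PinnedMin
open Fermat.Agent.GB.Top.FreyTwo.Transvection

/-- **CASE B at a minimal level, flat form**: `PinnedMin.CaseB38min` at a level prime to `p`. -/
def CaseB38minFlat : Prop :=
  ∀ (p : ℕ) [Fact p.Prime] (_ : 5 ≤ p) (W : WeierstrassCurve ℤ) (_ : W.Δ ≠ 0)
    (_ : W.IsSemistableModel)
    (hcard₁ : Nat.card (Submodule.torsionBy ℤ
      ((W.map (Int.castRingHom ℚ))⁄(AlgebraicClosure ℚ)).Point p) = p ^ 2)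
    (hker : GaloisFactorsThroughFiniteLevel
      (WeierstrassCurve.Affine.Point.galoisRepModuleEnd (K := AlgebraicClosure ℚ) ℚ
        (W.map (Int.castRingHom ℚ)) p))
    (_ : W.ModRepIsIrreducible p) (_ : HasTransvectionModP (W.map (Int.castRingHom ℚ)) p)
    (M q : ℕ) (_ : q.Prime) (_ : q ≠ 2) (_ : q ≠ p)
    (_ : q ∣ M) (_ : Squarefree M) (_ : ¬ p ∣ M)
    (_ : ((W.map (Int.castRingHom ℚ)).residualGaloisRepOf p hcard₁ hker).IsUnramifiedAt q)
    (_ : W.IsResiduallyModularOfLevel p M)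
    (_ : q % p = 1) (_ : ScalarFrob38 W p q)
    (_ : ∀ ℓ : ℕ, ℓ.Prime → ℓ ∣ M → ℓ ≠ p →
      ¬ ((W.map (Int.castRingHom ℚ)).residualGaloisRepOf p hcard₁ hker).IsUnramifiedAt ℓ ∨
        (ℓ % p = 1 ∧ ScalarFrob38 W p ℓ)),
    W.IsResiduallyModularOfLevel p (M / q)

/-- **CASE B at a minimal level, `p`-new form**: `p ∣ M` and `W[p]` is NOT residually modular of
level `M / p`. -/
def CaseB38minNew : Prop :=
  ∀ (p : ℕ) [Fact p.Prime] (_ : 5 ≤ p) (W : WeierstrassCurve ℤ) (_ : W.Δ ≠ 0)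
    (_ : W.IsSemistableModel)
    (hcard₁ : Nat.card (Submodule.torsionBy ℤ
      ((W.map (Int.castRingHom ℚ))⁄(AlgebraicClosure ℚ)).Point p) = p ^ 2)
    (hker : GaloisFactorsThroughFiniteLevel
      (WeierstrassCurve.Affine.Point.galoisRepModuleEnd (K := AlgebraicClosure ℚ) ℚ
        (W.map (Int.castRingHom ℚ)) p))
    (_ : W.ModRepIsIrreducible p) (_ : HasTransvectionModP (W.map (Int.castRingHom ℚ)) p)
    (M q : ℕ) (_ : q.Prime) (_ : q ≠ 2) (_ : q ≠ p)
    (_ : q ∣ M) (_ : Squarefree M) (_ : p ∣ M)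
    (_ : ¬ W.IsResiduallyModularOfLevel p (M / p))
    (_ : ((W.map (Int.castRingHom ℚ)).residualGaloisRepOf p hcard₁ hker).IsUnramifiedAt q)
    (_ : W.IsResiduallyModularOfLevel p M)
    (_ : q % p = 1) (_ : ScalarFrob38 W p q)
    (_ : ∀ ℓ : ℕ, ℓ.Prime → ℓ ∣ M → ℓ ≠ p →
      ¬ ((W.map (Int.castRingHom ℚ)).residualGaloisRepOf p hcard₁ hker).IsUnramifiedAt ℓ ∨
        (ℓ % p = 1 ∧ ScalarFrob38 W p ℓ)),
    W.IsResiduallyModularOfLevel p (M / q)

/-- `CaseB38minFlat` in contradiction form (what the patching engine produces). -/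
def CaseB38minFlatF : Prop :=
  ∀ (p : ℕ) [Fact p.Prime] (_ : 5 ≤ p) (W : WeierstrassCurve ℤ) (_ : W.Δ ≠ 0)
    (_ : W.IsSemistableModel)
    (hcard₁ : Nat.card (Submodule.torsionBy ℤ
      ((W.map (Int.castRingHom ℚ))⁄(AlgebraicClosure ℚ)).Point p) = p ^ 2)
    (hker : GaloisFactorsThroughFiniteLevel
      (WeierstrassCurve.Affine.Point.galoisRepModuleEnd (K := AlgebraicClosure ℚ) ℚ
        (W.map (Int.castRingHom ℚ)) p))
    (_ : W.ModRepIsIrreducible p) (_ : HasTransvectionModP (W.map (Int.castRingHom ℚ)) p)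
    (M q : ℕ) (_ : q.Prime) (_ : q ≠ 2) (_ : q ≠ p)
    (_ : q ∣ M) (_ : Squarefree M) (_ : ¬ p ∣ M)
    (_ : ((W.map (Int.castRingHom ℚ)).residualGaloisRepOf p hcard₁ hker).IsUnramifiedAt q)
    (_ : W.IsResiduallyModularOfLevel p M)
    (_ : ¬ W.IsResiduallyModularOfLevel p (M / q))
    (_ : q % p = 1) (_ : ScalarFrob38 W p q)
    (_ : ∀ ℓ : ℕ, ℓ.Prime → ℓ ∣ M → ℓ ≠ p →
      ¬ ((W.map (Int.castRingHom ℚ)).residualGaloisRepOf p hcard₁ hker).IsUnramifiedAt ℓ ∨
        (ℓ % p = 1 ∧ ScalarFrob38 W p ℓ)),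
    False

/-- `CaseB38minNew` in contradiction form (what the patching engine produces). -/
def CaseB38minNewF : Prop :=
  ∀ (p : ℕ) [Fact p.Prime] (_ : 5 ≤ p) (W : WeierstrassCurve ℤ) (_ : W.Δ ≠ 0)
    (_ : W.IsSemistableModel)
    (hcard₁ : Nat.card (Submodule.torsionBy ℤ
      ((W.map (Int.castRingHom ℚ))⁄(AlgebraicClosure ℚ)).Point p) = p ^ 2)
    (hker : GaloisFactorsThroughFiniteLevel
      (WeierstrassCurve.Affine.Point.galoisRepModuleEnd (K := AlgebraicClosure ℚ) ℚ
        (W.map (Int.castRingHom ℚ)) p))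
    (_ : W.ModRepIsIrreducible p) (_ : HasTransvectionModP (W.map (Int.castRingHom ℚ)) p)
    (M q : ℕ) (_ : q.Prime) (_ : q ≠ 2) (_ : q ≠ p)
    (_ : q ∣ M) (_ : Squarefree M) (_ : p ∣ M)
    (_ : ¬ W.IsResiduallyModularOfLevel p (M / p))
    (_ : ((W.map (Int.castRingHom ℚ)).residualGaloisRepOf p hcard₁ hker).IsUnramifiedAt q)
    (_ : W.IsResiduallyModularOfLevel p M)
    (_ : ¬ W.IsResiduallyModularOfLevel p (M / q))
    (_ : q % p = 1) (_ : ScalarFrob38 W p q)
    (_ : ∀ ℓ : ℕ, ℓ.Prime → ℓ ∣ M → ℓ ≠ p →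
      ¬ ((W.map (Int.castRingHom ℚ)).residualGaloisRepOf p hcard₁ hker).IsUnramifiedAt ℓ ∨
        (ℓ % p = 1 ∧ ScalarFrob38 W p ℓ)),
    False

theorem caseB38minFlat_of_false (h : CaseB38minFlatF) : CaseB38minFlat := by
  intro p _ hp5 W hΔ hW hcard₁ hker hirr htr M q hq hq2 hqp hqM hM hpM hunr hres h1 hs hSg
  by_contra hnot
  exact h p hp5 W hΔ hW hcard₁ hker hirr htr M q hq hq2 hqp hqM hM hpM hunr hres hnot h1 hs hSg

theorem caseB38minNew_of_false (h : CaseB38minNewF) : CaseB38minNew := by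
  intro p _ hp5 W hΔ hW hcard₁ hker hirr htr M q hq hq2 hqp hqM hM hpM hX hunr hres h1 hs hSg
  by_contra hnot
  exact h p hp5 W hΔ hW hcard₁ hker hirr htr M q hq hq2 hqp hqM hM hpM hX hunr hres hnot h1 hs
    hSg

/-- Nothing is lost: `CaseB38min` gives both forms. -/
theorem caseB38minFlat_of_caseB38min (h : CaseB38min) : CaseB38minFlat :=
  fun p _ hp5 W hΔ hW hcard₁ hker hirr htr M q hq hq2 hqp hqM hM _ hunr hres h1 hs hSg =>
    h p hp5 W hΔ hW hcard₁ hker hirr htr M q hq hq2 hqp hqM hM hunr hres h1 hs hSg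

theorem caseB38minNew_of_caseB38min (h : CaseB38min) : CaseB38minNew :=
  fun p _ hp5 W hΔ hW hcard₁ hker hirr htr M q hq hq2 hqp hqM hM _ _ hunr hres h1 hs hSg =>
    h p hp5 W hΔ hW hcard₁ hker hirr htr M q hq hq2 hqp hqM hM hunr hres h1 hs hSg

/-- the flat and new forms of `SplitT` give those at a minimal level (the extra binder is
dropped). -/
theorem caseB38minFlat_of_caseBTFlat (h : SplitT.CaseBTFlat) : CaseB38minFlat :=
  fun p _ hp5 W hΔ hW hcard₁ hker hirr htr M q hq hq2 hqp hqM hM hpM hunr hres h1 hs _ =>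
    h p hp5 W hΔ hW hcard₁ hker hirr htr M q hq hq2 hqp hqM hM hpM hunr hres h1 hs

theorem caseB38minNew_of_caseBTNew (h : SplitT.CaseBTNew) : CaseB38minNew :=
  fun p _ hp5 W hΔ hW hcard₁ hker hirr htr M q hq hq2 hqp hqM hM hpM hX hunr hres h1 hs _ =>
    h p hp5 W hΔ hW hcard₁ hker hirr htr M q hq hq2 hqp hqM hM hpM hX hunr hres h1 hs

/-- **CASE B at a minimal level from its two honest forms.** -/
theorem caseB38min_of_split (hflat : CaseB38minFlat) (hnew : CaseB38minNew) : CaseB38min := by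
  intro p _ hp5 W hΔ hW hcard₁ hker hirr htr M q hq hq2 hqp hqM hM hunr hres h1 hs hSg
  have hp : p.Prime := Fact.out
  by_cases hpM : p ∣ M
  · by_cases hX : W.IsResiduallyModularOfLevel p (M / p)
    · -- the flat case at level `M / p`, then old forms
      have hM0 : M ≠ 0 := hM.ne_zero
      have hdvd : M / p ∣ M := Nat.div_dvd_of_dvd hpM
      have hsq1 : Squarefree (M / p) := hM.squarefree_of_dvd hdvd
      have hq1 : q ∣ M / p := by
        obtain ⟨k, hk⟩ := hpM
        have hqk : q ∣ k := by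
          have : q ∣ p * k := hk ▸ hqM
          rcases (Nat.Prime.dvd_mul hq).mp this with h | h
          · exact absurd ((Nat.prime_dvd_prime_iff_eq hq hp).mp h) hqp
          · exact h
        rw [hk, Nat.mul_div_cancel_left k hp.pos]
        exact hqk
      have hp1 : ¬ p ∣ M / p := by
        intro h
        obtain ⟨k, hk⟩ := h
        have h2 : M = p * (M / p) := (Nat.mul_div_cancel' hpM).symm
        have h3 : p * p ∣ M := ⟨k, by rw [h2, hk]; ring⟩
        exact hp.not_isUnit (hM p h3)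
      have h5 := hflat p hp5 W hΔ hW hcard₁ hker hirr htr (M / p) q hq hq2 hqp hq1 hsq1 hp1
        hunr hX h1 hs (fun ℓ hℓ hℓM hℓp => hSg ℓ hℓ (hℓM.trans hdvd) hℓp)
      have hdd : M / p / q ∣ M / q := by
        rw [Nat.div_div_eq_div_mul, mul_comm p q, ← Nat.div_div_eq_div_mul]
        exact Nat.div_dvd_of_dvd (by
          obtain ⟨k, hk⟩ := hqM
          rw [hk, Nat.mul_div_cancel_left k hq.pos]
          have : p ∣ q * k := hk ▸ hpM
          rcases (Nat.Prime.dvd_mul hp).mp this with h | h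
          · exact absurd ((Nat.prime_dvd_prime_iff_eq hp hq).mp h).symm hqp
          · exact h)
      have hne : M / q ≠ 0 := by
        intro h0
        have := Nat.div_mul_cancel hqM
        rw [h0, zero_mul] at this
        exact hM0 this.symm
      exact SplitT.isResiduallyModularOfLevel_of_dvd h5 hdd hne
    · exact hnew p hp5 W hΔ hW hcard₁ hker hirr htr M q hq hq2 hqp hqM hM hpM hX hunr hres h1 hs
        hSg
  · exact hflat p hp5 W hΔ hW hcard₁ hker hirr htr M q hq hq2 hqp hqM hM hpM hunr hres h1 hs hSg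

/-- **The frozen S43 from CASE A and the two honest forms of CASE B at a minimal level.** -/
theorem s43_of_split_min (hA : CaseA38) (hflat : CaseB38minFlat) (hnew : CaseB38minNew)
    (hS05 : ∀ (P : FreyPackage) {ℓ : ℕ}, ℓ.Prime → ℓ ≠ 2 → ℓ ≠ P.p → P.GaloisRepUnramifiedAt ℓ)
    (P : FreyPackage) {N q : ℕ}
    (hcond : P.IsConductorLevel N) (hq : q.Prime) (hq2 : q ≠ 2) (hqp : q ≠ P.p) (hqN : q ∣ N)
    (hirr : GaloisRepIsIrreducible (K := AlgebraicClosure ℚ) ℚ P.freyCurve P.p)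
    (hmod : P.ModularRepOfLevel N) (hunr : P.GaloisRepUnramifiedAt q) :
    ∃ M : ℕ, M ∣ N ∧ ¬ q ∣ M ∧ P.ModularRepOfLevel M :=
  PinnedMin.s43_of_min hA (caseB38min_of_split hflat hnew) hS05 P hcond hq hq2 hqp hqN hirr hmod
    hunr

/-- the same from the contradiction forms. -/
theorem s43_of_split_min_false (hA : CaseA38) (hflat : CaseB38minFlatF) (hnew : CaseB38minNewF)
    (hS05 : ∀ (P : FreyPackage) {ℓ : ℕ}, ℓ.Prime → ℓ ≠ 2 → ℓ ≠ P.p → P.GaloisRepUnramifiedAt ℓ)
    (P : FreyPackage) {N q : ℕ}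
    (hcond : P.IsConductorLevel N) (hq : q.Prime) (hq2 : q ≠ 2) (hqp : q ≠ P.p) (hqN : q ∣ N)
    (hirr : GaloisRepIsIrreducible (K := AlgebraicClosure ℚ) ℚ P.freyCurve P.p)
    (hmod : P.ModularRepOfLevel N) (hunr : P.GaloisRepUnramifiedAt q) :
    ∃ M : ℕ, M ∣ N ∧ ¬ q ∣ M ∧ P.ModularRepOfLevel M :=
  s43_of_split_min hA (caseB38minFlat_of_false hflat) (caseB38minNew_of_false hnew) hS05 P hcond
    hq hq2 hqp hqN hirr hmod hunr

end Fermat.Agent.GB.Top.SplitMin
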