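/-
GATE-B (Ribet level lowering, S38/S43) / TOP (helper69): **`SplitMin` with the residual
ordinarity binder in the `p`-new branch.**

`SplitMin.CaseB38minNewF` quantifies over ALL semistable `W` and has no binder from which the
hypothesis `hres` of the frozen S33 (RESIDUAL ordinarity of `ρ̄ = W[p]` at `p`) could be obtained
(the modular side is circular: S33 needs `hres`; for a `W` with good supersingular reduction at `p`
it is false).  This file adds ONE binder to the `p`-new branch,

  `hordbar : (GaloisRepAdic.ofResidualGaloisRep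
      ((W.map (Int.castRingHom ℚ)).residualGaloisRepOf p hcard₁ hker)).IsOrdinaryAt p`,

(`CaseB38minNewFO`, right after `htrans`) and discharges it in the Frey instantiation
(`W := P.freyCurveInt`, `p ∣ N' q ⟹ p ∣ abc` by `IsConductorLevel.support`) by
`GB/ResOrd/Frey.frey_isOrdinaryAt`:

* `caseB38min_at`        : the split of `SplitMin.caseB38min_of_split` for ONE `(W, M, q)`;
* `caseBmin_frey_ord`    : `CaseB38minFlatF → CaseB38minNewFO → GB.Top.CaseBmin`;
* `s43_of_split_min_ord` : `CaseA38 → CaseB38minFlatF → CaseB38minNewFO → (S05) → frozen S43`;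
* `caseB38minNewFO_of_newF` : nothing is lost (`CaseB38minNewF → CaseB38minNewFO`).
-/
import Fermat.Agent.GB.Top.SplitMin
import Fermat.Agent.GB.Setup.RhoBar
import Fermat.Agent.GB.ResOrd.Frey

set_option autoImplicit false

open WeierstrassCurve WeierstrassCurve.Affine WeierstrassCurve.Affine.Point
open scoped WeierstrassCurve.Affine

namespace Fermat.Agent.GB.Top.SplitMinOrd

open Fermat.Agent.GB.Top.S43Frey Fermat.Agent.GB.Top.Pinned Fermat.Agent.GB.Top.PinnedMin
open Fermat.Agent.GB.Top.ModelChangeProof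
open Fermat.Agent.GB.Top.FreyTwo.Transvection
open Fermat.Agent.GB.Top.SplitMin

/-- **`SplitMin.CaseB38minNewF` with the residual ordinarity binder `hordbar`.** -/
def CaseB38minNewFO : Prop :=
  ∀ (p : ℕ) [Fact p.Prime] (_ : 5 ≤ p) (W : WeierstrassCurve ℤ) (_ : W.Δ ≠ 0)
    (_ : W.IsSemistableModel)
    (hcard₁ : Nat.card (Submodule.torsionBy ℤ
      ((W.map (Int.castRingHom ℚ))⁄(AlgebraicClosure ℚ)).Point p) = p ^ 2)
    (hker : GaloisFactorsThroughFiniteLevel
      (WeierstrassCurve.Affine.Point.galoisRepModuleEnd (K := AlgebraicClosure ℚ) ℚ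
        (W.map (Int.castRingHom ℚ)) p))
    (_ : W.ModRepIsIrreducible p) (_ : HasTransvectionModP (W.map (Int.castRingHom ℚ)) p)
    (_ : (GaloisRepAdic.ofResidualGaloisRep
      ((W.map (Int.castRingHom ℚ)).residualGaloisRepOf p hcard₁ hker)).IsOrdinaryAt p)
    (M q : ℕ) (_ : q.Prime) (_ : q ≠ 2) (_ : q ≠ p)
    (_ : q ∣ M) (_ : Squarefree M) (_ : p ∣ M)
    (_ : ¬ W.IsResiduallyModularOfLevel p (M / p))
    (_ : ((W.map (Int.castRingHom ℚ)).residualGaloisRepOf p hcard₁ hker).IsUnramifiedAt q)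
    (_ : W.IsResiduallyModularOfLevel p M)
    (_ : ¬ W.IsResiduallyModularOfLevel p (M / q))
    (_ : q % p = 1) (_ : ScalarFrob38 W p q)
    (_ : ∀ ℓ : ℕ, ℓ.Prime → ℓ ∣ M → ℓ ≠ p →
      ¬ ((W.map (Int.castRingHom ℚ)).residualGaloisRepOf p hcard₁ hker).IsUnramifiedAt ℓ ∨
        (ℓ % p = 1 ∧ ScalarFrob38 W p ℓ)),
    False

/-- Nothing is lost: the binder-free form implies the form with `hordbar`. -/
theorem caseB38minNewFO_of_newF (h : CaseB38minNewF) : CaseB38minNewFO :=
  fun p _ hp5 W hΔ hW hcard₁ hker hirr htr _ M q hq hq2 hqp hqM hM hpM hX hunr hres hnot h1 hs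
      hSg =>
    h p hp5 W hΔ hW hcard₁ hker hirr htr M q hq hq2 hqp hqM hM hpM hX hunr hres hnot h1 hs hSg

/-- **The split of CASE B at `p` for ONE `(W, M, q)`**: the body of
`SplitMin.caseB38min_of_split`, with the `p`-new branch as a hypothesis about this `(W, M, q)`
only. -/
theorem caseB38min_at (hflat : CaseB38minFlat)
    (p : ℕ) [Fact p.Prime] (hp5 : 5 ≤ p) (W : WeierstrassCurve ℤ) (hΔ : W.Δ ≠ 0)
    (hW : W.IsSemistableModel)
    (hcard₁ : Nat.card (Submodule.torsionBy ℤ
      ((W.map (Int.castRingHom ℚ))⁄(AlgebraicClosure ℚ)).Point p) = p ^ 2)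
    (hker : GaloisFactorsThroughFiniteLevel
      (WeierstrassCurve.Affine.Point.galoisRepModuleEnd (K := AlgebraicClosure ℚ) ℚ
        (W.map (Int.castRingHom ℚ)) p))
    (hirr : W.ModRepIsIrreducible p) (htr : HasTransvectionModP (W.map (Int.castRingHom ℚ)) p)
    (M q : ℕ) (hq : q.Prime) (hq2 : q ≠ 2) (hqp : q ≠ p)
    (hqM : q ∣ M) (hM : Squarefree M)
    (hunr : ((W.map (Int.castRingHom ℚ)).residualGaloisRepOf p hcard₁ hker).IsUnramifiedAt q)
    (hres : W.IsResiduallyModularOfLevel p M)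
    (h1 : q % p = 1) (hs : ScalarFrob38 W p q)
    (hSg : ∀ ℓ : ℕ, ℓ.Prime → ℓ ∣ M → ℓ ≠ p →
      ¬ ((W.map (Int.castRingHom ℚ)).residualGaloisRepOf p hcard₁ hker).IsUnramifiedAt ℓ ∨
        (ℓ % p = 1 ∧ ScalarFrob38 W p ℓ))
    (hnewW : p ∣ M → ¬ W.IsResiduallyModularOfLevel p (M / p) →
      W.IsResiduallyModularOfLevel p (M / q)) :
    W.IsResiduallyModularOfLevel p (M / q) := by
  have hp : p.Prime := Fact.out
  by_cases hpM : p ∣ M
  · by_cases hX : W.IsResiduallyModularOfLevel p (M / p)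
    · -- the flat case at level `M / p`, then old forms
      have hM0 : M ≠ 0 := hM.ne_zero
      have hdvd : M / p ∣ M := Nat.div_dvd_of_dvd hpM
      have hsq1 : Squarefree (M / p) := hM.squarefree_of_dvd hdvd
      have hq1 : q ∣ M / p := by
        obtain ⟨k, hk⟩ := hpM
        have hqk : q ∣ k := by
          have : q ∣ p * k := hk ▸ hqM
          rcases (Nat.Prime.dvd_mul hq).mp this with h | h
          · exact absurd ((Nat.prime_dvd_prime_iff_eq hq hp).mp h) hqp
          · exact h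
        rw [hk, Nat.mul_div_cancel_left k hp.pos]
        exact hqk
      have hp1 : ¬ p ∣ M / p := by
        intro h
        obtain ⟨k, hk⟩ := h
        have h2 : M = p * (M / p) := (Nat.mul_div_cancel' hpM).symm
        have h3 : p * p ∣ M := ⟨k, by rw [h2, hk]; ring⟩
        exact hp.not_isUnit (hM p h3)
      have h5 := hflat p hp5 W hΔ hW hcard₁ hker hirr htr (M / p) q hq hq2 hqp hq1 hsq1 hp1
        hunr hX h1 hs (fun ℓ hℓ hℓM hℓp => hSg ℓ hℓ (hℓM.trans hdvd) hℓp)
      have hdd : M / p / q ∣ M / q := by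
        rw [Nat.div_div_eq_div_mul, mul_comm p q, ← Nat.div_div_eq_div_mul]
        exact Nat.div_dvd_of_dvd (by
          obtain ⟨k, hk⟩ := hqM
          rw [hk, Nat.mul_div_cancel_left k hq.pos]
          have : p ∣ q * k := hk ▸ hpM
          rcases (Nat.Prime.dvd_mul hp).mp this with h | h
          · exact absurd ((Nat.prime_dvd_prime_iff_eq hp hq).mp h).symm hqp
          · exact h)
      have hne : M / q ≠ 0 := by
        intro h0
        have := Nat.div_mul_cancel hqM
        rw [h0, zero_mul] at this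
        exact hM0 this.symm
      exact SplitT.isResiduallyModularOfLevel_of_dvd h5 hdd hne
    · exact hnewW hpM hX
  · exact hflat p hp5 W hΔ hW hcard₁ hker hirr htr M q hq hq2 hqp hqM hM hpM hunr hres h1 hs hSg

/-- **The `hordbar` binder for the Frey curve**: residual ordinarity at `p` of
`P.freyCurveInt[p]` when `p` divides a conductor level at which the representation is residually
modular (the cyclotomic determinant comes from `GB/Setup/RhoBar.detIsCyclotomic`). -/
theorem frey_hordbar (P : FreyPackage) [Fact P.p.Prime] {N : ℕ} (hcond : P.IsConductorLevel N)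
    (hpN : P.p ∣ N)
    (hcard₁ : Nat.card (Submodule.torsionBy ℤ
      ((P.freyCurveInt.map (Int.castRingHom ℚ))⁄(AlgebraicClosure ℚ)).Point P.p) = P.p ^ 2)
    (hker : GaloisFactorsThroughFiniteLevel
      (WeierstrassCurve.Affine.Point.galoisRepModuleEnd (K := AlgebraicClosure ℚ) ℚ
        (P.freyCurveInt.map (Int.castRingHom ℚ)) P.p))
    (hirr : P.freyCurveInt.ModRepIsIrreducible P.p)
    (hres : P.freyCurveInt.IsResiduallyModularOfLevel P.p N) :
    (GaloisRepAdic.ofResidualGaloisRep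
      ((P.freyCurveInt.map (Int.castRingHom ℚ)).residualGaloisRepOf P.p hcard₁ hker)).IsOrdinaryAt
      P.p := by
  obtain ⟨D⟩ := (Fermat.Agent.GB.Setup.RhoBar.nonempty_modData_iff P.freyCurveInt P.p N).1 hres
  have hdet := Fermat.Agent.GB.Setup.RhoBar.detIsCyclotomic hcard₁ hker D hcond.pos.ne'
    (freyCurveInt_Δ_ne_zero P) hirr (ZMod P.p)
  exact Fermat.Agent.GB.ResOrd.Frey.frey_isOrdinaryAt P (hcond.support P.p P.pp hpN)
    (P.freyCurveInt.map (Int.castRingHom ℚ)) (freyCurve_eq_map P).symm hcard₁ hker (ZMod P.p) hdet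

/-- **CASE B at a minimal level in Frey-package form** from the flat contradiction form and the
`p`-new contradiction form WITH `hordbar` (`PinnedMin.caseBmin_frey` with the split at `p` done
inside the Frey instantiation). -/
theorem caseBmin_frey_ord (hflat : CaseB38minFlatF) (hnew : CaseB38minNewFO) :
    Fermat.Agent.GB.Top.CaseBmin := by
  intro P N' q hcond hq hq2 hqp hirr hmod hunr h1 hs hSig _
  have : Fact P.p.Prime := ⟨P.pp⟩
  have hp1 : 1 ≤ P.p := P.pp.one_lt.le
  have hΔ := freyCurveInt_Δ_ne_zero P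
  have hcard₁ := hcard_of_Δ_ne_zero P.freyCurveInt hΔ P.p hp1
  have hker := hker_of_Δ_ne_zero P.freyCurveInt hΔ P.p hp1
  have hres := frey_res_of_mod modelChange P hmod
  have hSg : ∀ ℓ : ℕ, ℓ.Prime → ℓ ∣ N' * q → ℓ ≠ P.p →
      ¬ ((P.freyCurveInt.map (Int.castRingHom ℚ)).residualGaloisRepOf P.p hcard₁
        hker).IsUnramifiedAt ℓ ∨ (ℓ % P.p = 1 ∧ ScalarFrob38 P.freyCurveInt P.p ℓ) := by
    intro ℓ hℓ hℓM hℓp
    by_cases hℓ2 : ℓ = 2
    · left
      rw [hℓ2]
      exact frey_ramified_two P hcard₁ hker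
    · right
      obtain ⟨h1', hs'⟩ := hSig ℓ hℓ hℓM hℓ2 hℓp
      exact ⟨h1', scalarFrob38_of_frobScalarAt P hs'⟩
  have hres' := caseB38min_at (caseB38minFlat_of_false hflat) P.p P.hp5 P.freyCurveInt hΔ
    (freyCurveInt_isSemistableModel P) hcard₁ hker (frey_irr P hirr) (frey_htrans P) (N' * q) q
    hq hq2 hqp (dvd_mul_left q N') hcond.squarefree (frey_unr P hcard₁ hker hunr) hres h1
    (scalarFrob38_of_frobScalarAt P hs) hSg ?_
  · rw [Nat.mul_div_cancel _ hq.pos] at hres'
    exact frey_mod_of_res P hres'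
  · intro hpM hX
    by_contra hnot
    exact hnew P.p P.hp5 P.freyCurveInt hΔ (freyCurveInt_isSemistableModel P) hcard₁ hker
      (frey_irr P hirr) (frey_htrans P)
      (frey_hordbar P hcond hpM hcard₁ hker (frey_irr P hirr) hres)
      (N' * q) q hq hq2 hqp (dvd_mul_left q N') hcond.squarefree hpM hX
      (frey_unr P hcard₁ hker hunr) hres hnot h1 (scalarFrob38_of_frobScalarAt P hs) hSg

/-- **The frozen S43 from CASE A, the flat contradiction form, and the `p`-new contradiction form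
with the residual ordinarity binder.** -/
theorem s43_of_split_min_ord (hA : CaseA38) (hflat : CaseB38minFlatF) (hnew : CaseB38minNewFO)
    (hS05 : ∀ (P : FreyPackage) {ℓ : ℕ}, ℓ.Prime → ℓ ≠ 2 → ℓ ≠ P.p → P.GaloisRepUnramifiedAt ℓ)
    (P : FreyPackage) {N q : ℕ}
    (hcond : P.IsConductorLevel N) (hq : q.Prime) (hq2 : q ≠ 2) (hqp : q ≠ P.p) (hqN : q ∣ N)
    (hirr : GaloisRepIsIrreducible (K := AlgebraicClosure ℚ) ℚ P.freyCurve P.p)
    (hmod : P.ModularRepOfLevel N) (hunr : P.GaloisRepUnramifiedAt q) :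
    ∃ M : ℕ, M ∣ N ∧ ¬ q ∣ M ∧ P.ModularRepOfLevel M :=
  Fermat.Agent.GB.Top.s43_of_min (caseA_frey hA) (caseBmin_frey_ord hflat hnew) hS05 P hcond hq
    hq2 hqp hqN hirr hmod hunr

end Fermat.Agent.GB.Top.SplitMinOrd
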