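/-
GATE-B / TOP (helper53, gate lead): **the frozen S43 from the two `LevelStmt`s.**

  `s43_of_levelStmts : ProviderFlat.Top.LevelStmt → ProviderNew.Top.LevelStmtNew → (frozen S43)`

= `SplitMinOrd.s43_of_split_min_ord` fed with CASE A (`GB.A.caseA38`, helper28), the two upper halves
of the provider (`Top.flatF_of_levelStmt`, `Top.newFO_of_levelStmtNew`, helper28) and the landed
`S05.result`.  So `Fermat/Agent/S43.lean` is this theorem applied to the two lower halves of the
provider (`ProviderFlat/Lower`, `ProviderNew/Lower`), and NOTHING else.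
-/
import Fermat.Statements.S43
import Fermat.Agent.S05
import Fermat.Agent.GB.Top.SplitMinOrd
import Fermat.Agent.GB.A.CaseA38
import Fermat.Agent.GB.B9.ProviderFlat.Top
import Fermat.Agent.GB.B9.ProviderNew.Top

set_option autoImplicit false

open WeierstrassCurve WeierstrassCurve.Affine WeierstrassCurve.Affine.Point
open CuspForm ModularFormClass UpperHalfPlane
open FreyPackage

namespace Fermat.Agent.GB.Top.S43OfLevels

/-- **The frozen S43 from the two level statements of the Taylor–Wiles provider.** -/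
theorem s43_of_levelStmts
    (hF : Fermat.Agent.GB.B9.ProviderFlat.Top.LevelStmt)
    (hN : Fermat.Agent.GB.B9.ProviderNew.Top.LevelStmtNew)
    (P : FreyPackage) {N q : ℕ} (hcond : P.IsConductorLevel N) (hq : q.Prime) (hq2 : q ≠ 2)
    (hqp : q ≠ P.p) (hqN : q ∣ N)
    (hirr : GaloisRepIsIrreducible (K := AlgebraicClosure ℚ) ℚ P.freyCurve P.p)
    (hmod : P.ModularRepOfLevel N) (hunr : P.GaloisRepUnramifiedAt q) :
    ∃ M : ℕ, M ∣ N ∧ ¬ q ∣ M ∧ P.ModularRepOfLevel M :=
  Fermat.Agent.GB.Top.SplitMinOrd.s43_of_split_min_ord Fermat.Agent.GB.A.caseA38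
    (Fermat.Agent.GB.B9.ProviderFlat.Top.flatF_of_levelStmt hF)
    (Fermat.Agent.GB.B9.ProviderNew.Top.newFO_of_levelStmtNew hN)
    (fun P _ h1 h2 h3 => Fermat.Agent.S05.result P h1 h2 h3)
    P hcond hq hq2 hqp hqN hirr hmod hunr

end Fermat.Agent.GB.Top.S43OfLevels
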